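import Fermat.Agent.AbScheme.PowerSeriesUFD

/-!
# Completion of a formally smooth local algebra with trivial residue field extension

Such a ring maps faithfully flatly to a ring of formal power series; over an infinite field it
is therefore a factorial domain.
-/

noncomputable section

namespace FLTAgent.AbScheme

open IsLocalRing

/-- A ring map which is surjective modulo the extended ideal is surjective modulo its powers. -/
theorem exists_sub_mem_map_pow {P Q : Type*} [CommRing P] [CommRing Q] (φ : P →+* Q)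
    (a : Ideal P) (h : ∀ q, ∃ p, q - φ p ∈ a.map φ) :
    ∀ (m : ℕ) (q : Q), ∃ p, q - φ p ∈ (a.map φ) ^ m
  | 0, q => ⟨0, by simp⟩
  | m + 1, q => by
    obtain ⟨p, hp⟩ := exists_sub_mem_map_pow φ a h m q
    suffices ∀ t ∈ (a.map φ) ^ m, ∃ p', t - φ p' ∈ (a.map φ) ^ (m + 1) by
      obtain ⟨p', hp'⟩ := this _ hp
      exact ⟨p + p', by rwa [map_add, ← sub_sub]⟩
    intro t ht
    rw [← Ideal.map_pow, Ideal.map, Ideal.span] at ht
    induction ht using Submodule.span_induction with
    | mem x hx =>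
      obtain ⟨y, -, rfl⟩ := hx
      exact ⟨y, by simp⟩
    | zero => exact ⟨0, by simp⟩
    | add x y _ _ hx hy =>
      obtain ⟨u, hu⟩ := hx
      obtain ⟨w, hw⟩ := hy
      exact ⟨u + w, by rw [map_add, add_sub_add_comm]; exact add_mem hu hw⟩
    | smul c x hx' hx =>
      obtain ⟨u, hu⟩ := hx
      obtain ⟨e, he⟩ := h c
      have hxm : x ∈ (a.map φ) ^ m := by rw [← Ideal.map_pow]; exact hx'
      refine ⟨e * u, ?_⟩
      have : c • x - φ (e * u) = (c - φ e) * x + φ e * (x - φ u) := by
        rw [map_mul, smul_eq_mul]; ring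
      rw [this]
      refine add_mem ?_ (Ideal.mul_mem_left _ _ hu)
      rw [pow_succ']
      exact Ideal.mul_mem_mul he hxm

theorem isAdicComplete_sq {S : Type*} [CommRing S] (I : Ideal S) [IsAdicComplete I S] :
    IsAdicComplete (I ^ 2) S where
  haus' x hx := IsHausdorff.haus' (I := I) x fun m => by
    rw [SModEq.zero, smul_eq_mul, Ideal.mul_top]
    have := hx m
    rw [SModEq.zero, smul_eq_mul, Ideal.mul_top, ← pow_mul] at this
    exact Ideal.pow_le_pow_right (by omega) this
  prec' f hf := by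
    have hle : ∀ {i j}, i ≤ j → f i - f j ∈ I ^ (2 * i) := fun {i j} hij => by
      have := hf hij
      rwa [smul_eq_mul, Ideal.mul_top, SModEq.sub_mem, ← pow_mul] at this
    obtain ⟨L, hL⟩ := IsPrecomplete.prec' (I := I) f fun {i j} hij => by
      rw [smul_eq_mul, Ideal.mul_top, SModEq.sub_mem]
      exact Ideal.pow_le_pow_right (by omega) (hle hij)
    refine ⟨L, fun i => ?_⟩
    rw [smul_eq_mul, Ideal.mul_top, SModEq.sub_mem, ← pow_mul]
    have := hL (2 * i)
    rw [smul_eq_mul, Ideal.mul_top, SModEq.sub_mem] at this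
    rw [show f i - L = (f i - f (2 * i)) + (f (2 * i) - L) by ring]
    exact add_mem (hle (by omega)) this

variable (K : Type*) [Field K]

/-- Elements of `𝔪 ^ m` in a ring of power series have no coefficients in degree `< m`. -/
theorem coeff_eq_zero_of_mem_pow {n : ℕ} {m : ℕ} {f : MvPowerSeries (Fin n) K}
    (hf : f ∈ (maximalIdeal (MvPowerSeries (Fin n) K)) ^ m) (e : Fin n →₀ ℕ)
    (he : Finsupp.degree e < m) : MvPowerSeries.coeff e f = 0 := by
  suffices (m : ℕ∞) ≤ f.order by
    exact MvPowerSeries.coeff_of_lt_order (lt_of_lt_of_le (by exact_mod_cast he) this)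
  clear he
  induction m generalizing f with
  | zero => simp
  | succ m ih =>
    rw [pow_succ] at hf
    induction hf using Submodule.mul_induction_on' with
    | mem_mul_mem x hx y hy =>
      refine le_trans ?_ MvPowerSeries.le_order_mul
      have hy0 : MvPowerSeries.constantCoeff y = 0 := by
        by_contra h
        exact hy (MvPowerSeries.isUnit_iff_constantCoeff.2 (Ne.isUnit h))
      push_cast
      exact add_le_add (ih hx) (MvPowerSeries.one_le_order_iff_constCoeff_eq_zero.2 hy0)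
    | add x _ y _ hx hy => exact le_trans (le_min hx hy) MvPowerSeries.min_order_le_add

variable {R : Type*} [CommRing R] [IsLocalRing R] [Algebra K R]

theorem exists_eq_single_of_degree_eq_one {n : ℕ} {e : Fin n →₀ ℕ}
    (h : Finsupp.degree e = 1) : ∃ i, e = Finsupp.single i 1 := by
  rw [Finsupp.degree_eq_sum] at h
  obtain ⟨i, hi⟩ : ∃ i, e i ≠ 0 := by
    by_contra hh
    push Not at hh
    simp [hh] at h
  refine ⟨i, Finsupp.ext fun j => ?_⟩
  have hle : ∀ j, e j ≤ ∑ k, e k := fun j =>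
    Finset.single_le_sum (fun k _ => Nat.zero_le (e k)) (Finset.mem_univ j)
  rcases eq_or_ne j i with rfl | hji
  · have := hle j; rw [Finsupp.single_eq_same]; omega
  · rw [Finsupp.single_eq_of_ne hji]
    have := Finset.sum_le_sum_of_subset (f := e) (Finset.subset_univ {i, j})
    rw [Finset.sum_pair (Ne.symm hji)] at this
    omega

theorem finite_quotient_idealOfVars_pow (n m : ℕ) :
    Module.Finite K (MvPolynomial (Fin n) K ⧸ MvPolynomial.idealOfVars (Fin n) K ^ m) := by
  set J := MvPolynomial.idealOfVars (Fin n) K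
  let mkm := Ideal.Quotient.mkₐ K (J ^ m)
  let s : Set (MvPolynomial (Fin n) K ⧸ J ^ m) :=
    (fun e => mkm (MvPolynomial.monomial e 1)) '' {e : Fin n →₀ ℕ | Finsupp.degree e < m}
  have hs : s.Finite := Set.Finite.image _ (Finsupp.finite_of_degree_lt m)
  refine ⟨⟨hs.toFinset, eq_top_iff.2 fun y _ => ?_⟩⟩
  obtain ⟨y, rfl⟩ := Ideal.Quotient.mkₐ_surjective K (J ^ m) y
  rw [hs.coe_toFinset, y.as_sum, map_sum]
  refine sum_mem fun e _ => ?_
  by_cases he : Finsupp.degree e < m
  · rw [show MvPolynomial.monomial e (y.coeff e) = y.coeff e • MvPolynomial.monomial e 1 by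
      rw [MvPolynomial.smul_monomial, smul_eq_mul, mul_one], map_smul]
    exact Submodule.smul_mem _ _ (Submodule.subset_span ⟨e, he, rfl⟩)
  · rw [Ideal.Quotient.mkₐ_eq_mk, Ideal.Quotient.eq_zero_iff_mem.2
      ((MvPolynomial.mem_pow_idealOfVars_iff' _ _).2 fun e' he' => by
        rw [MvPolynomial.coeff_monomial, if_neg]; rintro rfl; exact he he')]
    exact zero_mem _

/-- Injectivity modulo `𝔪 ^ m` by counting dimensions. -/
theorem mem_pow_of_surjective {n m : ℕ} (π : MvPolynomial (Fin n) K →ₐ[K] R)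
    (j : MvPolynomial (Fin n) K →ₐ[K] MvPowerSeries (Fin n) K)
    (ψ : R →ₐ[K] MvPowerSeries (Fin n) K)
    (hπJ : (MvPolynomial.idealOfVars (Fin n) K).map π.toRingHom = maximalIdeal R)
    (hjn : (MvPolynomial.idealOfVars (Fin n) K).map j.toRingHom
      = maximalIdeal (MvPowerSeries (Fin n) K))
    (hmapn : (maximalIdeal R).map ψ.toRingHom = maximalIdeal (MvPowerSeries (Fin n) K))
    (hπs : ∀ r, ∃ p, r - π p ∈ maximalIdeal R ^ m)
    (hψs : ∀ q, ∃ p, q - ψ p ∈ maximalIdeal (MvPowerSeries (Fin n) K) ^ m)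
    (hjJ : ∀ p, j p ∈ maximalIdeal (MvPowerSeries (Fin n) K) ^ m →
      p ∈ MvPolynomial.idealOfVars (Fin n) K ^ m)
    {r : R} (hr : ψ r ∈ maximalIdeal (MvPowerSeries (Fin n) K) ^ m) :
    r ∈ maximalIdeal R ^ m := by
  set J := MvPolynomial.idealOfVars (Fin n) K
  set 𝔪 := maximalIdeal R
  set 𝔫 := maximalIdeal (MvPowerSeries (Fin n) K)
  have := finite_quotient_idealOfVars_pow K n m
  let π' : (MvPolynomial (Fin n) K ⧸ J ^ m) →ₐ[K] R ⧸ 𝔪 ^ m :=
    Ideal.Quotient.liftₐ _ ((Ideal.Quotient.mkₐ K (𝔪 ^ m)).comp π) fun p hp =>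
      Ideal.Quotient.eq_zero_iff_mem.2 (by
        rw [← hπJ, ← Ideal.map_pow]; exact Ideal.mem_map_of_mem π.toRingHom hp)
  let ψ' : (R ⧸ 𝔪 ^ m) →ₐ[K] (MvPowerSeries (Fin n) K) ⧸ 𝔫 ^ m :=
    Ideal.Quotient.liftₐ _ ((Ideal.Quotient.mkₐ K (𝔫 ^ m)).comp ψ) fun p hp =>
      Ideal.Quotient.eq_zero_iff_mem.2 (by
        rw [← hmapn, ← Ideal.map_pow]; exact Ideal.mem_map_of_mem ψ.toRingHom hp)
  let j' : (MvPolynomial (Fin n) K ⧸ J ^ m) →ₐ[K] (MvPowerSeries (Fin n) K) ⧸ 𝔫 ^ m :=
    Ideal.Quotient.liftₐ _ ((Ideal.Quotient.mkₐ K (𝔫 ^ m)).comp j) fun p hp =>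
      Ideal.Quotient.eq_zero_iff_mem.2 (by
        rw [← hjn, ← Ideal.map_pow]; exact Ideal.mem_map_of_mem j.toRingHom hp)
  have hπ' : Function.Surjective π' := fun y => by
    obtain ⟨y, rfl⟩ := Ideal.Quotient.mk_surjective y
    obtain ⟨p, hp⟩ := hπs y
    exact ⟨Ideal.Quotient.mk _ p, (Ideal.Quotient.eq.2 hp).symm⟩
  have hψ' : Function.Surjective ψ' := fun y => by
    obtain ⟨y, rfl⟩ := Ideal.Quotient.mk_surjective y
    obtain ⟨p, hp⟩ := hψs y
    exact ⟨Ideal.Quotient.mk _ p, (Ideal.Quotient.eq.2 hp).symm⟩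
  have hj' : Function.Injective j' := (injective_iff_map_eq_zero _).2 fun y hy => by
    obtain ⟨y, rfl⟩ := Ideal.Quotient.mk_surjective y
    exact Ideal.Quotient.eq_zero_iff_mem.2 (hjJ y (Ideal.Quotient.eq_zero_iff_mem.1 hy))
  have hsurj : Function.Surjective (ψ'.toLinearMap ∘ₗ π'.toLinearMap) := hψ'.comp hπ'
  have : Module.Finite K ((MvPowerSeries (Fin n) K) ⧸ 𝔫 ^ m) :=
    Module.Finite.of_surjective _ hsurj
  have hdim := le_antisymm
    (LinearMap.finrank_le_finrank_of_injective (f := j'.toLinearMap) hj')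
    (LinearMap.finrank_le_finrank_of_surjective hsurj)
  have hinj := (LinearMap.injective_iff_surjective_of_finrank_eq_finrank hdim).2 hsurj
  obtain ⟨y, hy⟩ := hπ' (Ideal.Quotient.mk _ r)
  have hψr : ψ' (Ideal.Quotient.mk _ r) = 0 := Ideal.Quotient.eq_zero_iff_mem.2 hr
  have hy0 : y = 0 := hinj (by simp [hy, hψr])
  exact Ideal.Quotient.eq_zero_iff_mem.1 (by rw [← hy, hy0, map_zero])

/-- Comparison map to power series: a `K`-algebra map inducing bijections modulo all powers
of the maximal ideals. -/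
theorem exists_toPowerSeries [IsNoetherianRing R] [Algebra.FormallySmooth K R]
    (hres : Function.Surjective (algebraMap K (ResidueField R))) :
    ∃ (n : ℕ) (ψ : R →ₐ[K] MvPowerSeries (Fin n) K),
      (maximalIdeal R).map ψ.toRingHom = maximalIdeal (MvPowerSeries (Fin n) K) ∧
      ∀ m, (∀ q, ∃ p, q - ψ p ∈ maximalIdeal (MvPowerSeries (Fin n) K) ^ m) ∧
        ∀ r, ψ r ∈ maximalIdeal (MvPowerSeries (Fin n) K) ^ m → r ∈ maximalIdeal R ^ m := by
  classical
  set 𝔪 := maximalIdeal R
  set n := Module.finrank (ResidueField R) (CotangentSpace R)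
  let bK := Module.finBasis (ResidueField R) (CotangentSpace R)
  choose x hx using fun i : Fin n => 𝔪.toCotangent_surjective (bK i)
  set S := MvPowerSeries (Fin n) K
  set 𝔫 := maximalIdeal S
  have hc : ∀ r : R, ∃ c : K, r - algebraMap K R c ∈ 𝔪 := fun r => by
    obtain ⟨c, hc⟩ := hres (residue R r)
    exact ⟨c, Ideal.Quotient.eq.1 (hc.symm.trans rfl)⟩
  let π : MvPolynomial (Fin n) K →ₐ[K] R := MvPolynomial.aeval fun i => (x i : R)
  set J := MvPolynomial.idealOfVars (Fin n) K
  have hπJ : J.map π.toRingHom = 𝔪 := by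
    have h1 : J.map π.toRingHom = Ideal.span (Set.range fun i => (x i : R)) := by
      rw [show J = Ideal.span (Set.range MvPolynomial.X) from rfl, Ideal.map_span,
        ← Set.range_comp]
      congr 1; ext; simp [π]
    rw [h1]
    refine le_antisymm (Ideal.span_le.2 (by rintro _ ⟨i, rfl⟩; exact (x i).2)) ?_
    have htop : Submodule.span R (Set.range x) = (⊤ : Submodule R 𝔪) := by
      refine CotangentSpace.span_image_eq_top_iff.1 ?_
      rw [← Set.range_comp]
      exact (congrArg (Submodule.span (ResidueField R) ∘ Set.range) (funext hx)).trans bK.span_eq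
    intro r hr
    have := congrArg (Submodule.map 𝔪.subtype) htop
    rw [Submodule.map_span, Submodule.map_subtype_top, ← Set.range_comp] at this
    exact this.ge hr
  -- surjectivity of `K[X] → R / 𝔪 ^ m`
  have hπs : ∀ m r, ∃ p, r - π p ∈ 𝔪 ^ m := by
    intro m r
    obtain ⟨p, hp⟩ := exists_sub_mem_map_pow π.toRingHom J (fun r => by
      obtain ⟨c, hc⟩ := hc r
      refine ⟨MvPolynomial.C c, ?_⟩
      rw [hπJ]
      simpa [π] using hc) m r
    exact ⟨p, by rwa [hπJ] at hp⟩
  let j : MvPolynomial (Fin n) K →ₐ[K] S := MvPolynomial.coeToMvPowerSeries.algHom K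
  have hjcoe : ∀ p, j p = (p : S) := fun p => by simp [j, MvPolynomial.coeToMvPowerSeries.algHom]
  have hjJ : ∀ m p, j p ∈ 𝔫 ^ m → p ∈ J ^ m := fun m p hp =>
    (MvPolynomial.mem_pow_idealOfVars_iff' _ _).2 fun e he => by
      have := coeff_eq_zero_of_mem_pow K hp e he
      rwa [hjcoe, MvPolynomial.coeff_coe] at this
  have hjn : J.map j.toRingHom = 𝔫 := by
    rw [show 𝔫 = _ from maximalIdeal_mvPowerSeries_eq K, show J = Ideal.span
      (Set.range MvPolynomial.X) from rfl, Ideal.map_span, ← Set.range_comp]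
    congr 1; ext; simp [hjcoe]
  -- the map modulo `𝔫 ^ 2`
  have hker2 : ∀ p, π p ∈ 𝔪 ^ 2 → j p ∈ 𝔫 ^ 2 := by
    intro p hp
    let c0 : K := MvPolynomial.coeff 0 p
    let c : Fin n → K := fun i => MvPolynomial.coeff (Finsupp.single i 1) p
    let q : MvPolynomial (Fin n) K := MvPolynomial.C c0 + ∑ i, MvPolynomial.C (c i) * MvPolynomial.X i
    have hdiff : p - q ∈ J ^ 2 := by
      rw [MvPolynomial.mem_pow_idealOfVars_iff']
      intro e he
      rcases Nat.lt_succ_iff.1 he |>.eq_or_lt with h1 | h0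
      · obtain ⟨i, rfl⟩ := exists_eq_single_of_degree_eq_one h1
        simp [q, c, c0, MvPolynomial.coeff_sum, MvPolynomial.coeff_C_mul, MvPolynomial.coeff_X,
          Finsupp.single_left_inj, eq_comm]
      · obtain rfl : e = 0 := by
          ext i
          have := Finsupp.le_degree i e
          simp; omega
        simp [q, c0, MvPolynomial.coeff_sum, MvPolynomial.coeff_C_mul, MvPolynomial.coeff_X]
    have hq : π q ∈ 𝔪 ^ 2 := by
      have hd : π (p - q) ∈ 𝔪 ^ 2 := by
        rw [← hπJ, ← Ideal.map_pow]; exact Ideal.mem_map_of_mem π.toRingHom hdiff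
      rw [map_sub] at hd
      simpa using sub_mem hp hd
    have hsum : ∑ i, algebraMap K R (c i) * (x i : R) ∈ 𝔪 :=
      sum_mem fun i _ => Ideal.mul_mem_left _ _ (x i).2
    have hπq : π q = algebraMap K R c0 + ∑ i, algebraMap K R (c i) * (x i : R) := by simp [π, q]
    have hc0 : c0 = 0 := by
      by_contra h
      have hm : algebraMap K R c0 ∈ 𝔪 := by
        have := sub_mem (Ideal.pow_le_self two_ne_zero (hπq ▸ hq)) hsum
        simpa using this
      exact hm ((Ne.isUnit h).map _)
    have hci : ∀ i, c i = 0 := by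
      have hz : 𝔪.toCotangent (∑ i, algebraMap K R (c i) • x i) = 0 := by
        rw [Ideal.toCotangent_eq_zero]
        rw [hπq, hc0, map_zero, zero_add] at hq
        simpa [← Algebra.smul_def] using hq
      simp only [map_sum, map_smul, hx] at hz
      have := Fintype.linearIndependent_iff.1 bK.linearIndependent
        (fun i => residue R (algebraMap K R (c i))) hz
      intro i
      by_contra h
      exact (residue_ne_zero_iff_isUnit _).2 ((Ne.isUnit h).map _) (this i)
    have hq0 : q = 0 := by simp [q, hc0, hci]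
    rw [← hjn, ← Ideal.map_pow]
    exact Ideal.mem_map_of_mem j.toRingHom (by simpa [hq0] using hdiff)
  choose σ hσ using hπs 2
  have hlift : ∀ r p, r - π p ∈ 𝔪 ^ 2 →
      Ideal.Quotient.mk (𝔫 ^ 2) (j (σ r)) = Ideal.Quotient.mk (𝔫 ^ 2) (j p) := fun r p hp =>
    Ideal.Quotient.eq.2 (by
      rw [← map_sub]
      exact hker2 _ (by simpa [map_sub] using sub_mem hp (hσ r)))
  let f : R →ₐ[K] S ⧸ 𝔫 ^ 2 :=
    { toFun := fun r => Ideal.Quotient.mk _ (j (σ r))
      map_one' := by simpa using hlift 1 1 (by simp)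
      map_zero' := by simpa using hlift 0 0 (by simp)
      map_add' := fun a b => by
        rw [← map_add, ← map_add]
        refine hlift _ _ ?_
        have := add_mem (hσ a) (hσ b)
        rw [map_add]
        rwa [sub_add_sub_comm] at this
      map_mul' := fun a b => by
        rw [← map_mul, ← map_mul]
        refine hlift _ _ ?_
        rw [map_mul, show a * b - π (σ a) * π (σ b)
          = (a - π (σ a)) * b + π (σ a) * (b - π (σ b)) by ring]
        exact add_mem (Ideal.mul_mem_right _ _ (hσ a)) (Ideal.mul_mem_left _ _ (hσ b))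
      commutes' := fun c => by
        refine (hlift _ (MvPolynomial.C c) (by simp [π])).trans ?_
        rw [show j (MvPolynomial.C c) = algebraMap K S c from j.commutes c]
        rfl }
  have : IsAdicComplete (𝔫 ^ 2) S := isAdicComplete_sq 𝔫
  obtain ⟨ψ, hψ⟩ := Algebra.FormallySmooth.exists_mkₐ_comp_eq_of_isAdicComplete f
  have hψ2 : ∀ r p, r - π p ∈ 𝔪 ^ 2 → ψ r - j p ∈ 𝔫 ^ 2 := fun r p hp =>
    Ideal.Quotient.eq.1 ((AlgHom.congr_fun hψ r).trans (hlift r p hp))
  have hmapn : 𝔪.map ψ.toRingHom = 𝔫 := by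
    refine le_antisymm (Ideal.map_le_iff_le_comap.2 fun r hr => ?_) ?_
    · obtain ⟨p, hp⟩ := hπs 2 r
      have hp0 : j p ∈ 𝔫 := by
        rw [← hjn]
        refine Ideal.mem_map_of_mem j.toRingHom ?_
        have hπp : π p ∈ 𝔪 := by simpa using sub_mem hr (Ideal.pow_le_self two_ne_zero hp)
        by_contra hJ
        have hc : MvPolynomial.coeff 0 p ≠ 0 := fun h => hJ <| by
          rw [← pow_one J, MvPolynomial.mem_pow_idealOfVars_iff']
          intro e he
          obtain rfl : e = 0 := by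
            ext i
            have := Finsupp.le_degree i e
            simp; omega
          exact h
        have hsub : p - MvPolynomial.C (MvPolynomial.coeff 0 p) ∈ J := by
          rw [← pow_one J, MvPolynomial.mem_pow_idealOfVars_iff']
          intro e he
          obtain rfl : e = 0 := by
            ext i
            have := Finsupp.le_degree i e
            simp; omega
          simp
        have := Ideal.mem_map_of_mem π.toRingHom hsub
        rw [hπJ] at this
        have hm : algebraMap K R (MvPolynomial.coeff 0 p) ∈ 𝔪 := by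
          simpa [π] using sub_mem hπp this
        exact hm ((Ne.isUnit hc).map _)
      have := add_mem (Ideal.pow_le_self two_ne_zero (hψ2 r p hp)) hp0
      simpa using this
    · refine Submodule.le_of_le_smul_of_le_jacobson_bot (IsNoetherian.noetherian _)
        (maximalIdeal_le_jacobson _) ?_
      conv_lhs => rw [← hjn, show J = Ideal.span (Set.range MvPolynomial.X) from rfl, Ideal.map_span]
      rw [Ideal.span_le]
      rintro _ ⟨_, ⟨i, rfl⟩, rfl⟩
      refine Submodule.mem_sup.2 ⟨ψ (x i : R), Ideal.mem_map_of_mem _ (x i).2,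
        j (MvPolynomial.X i) - ψ (x i : R), ?_, by simp⟩
      rw [smul_eq_mul, ← sq, ← neg_sub]
      exact neg_mem (hψ2 _ _ (by simp [π]))
  have hψs : ∀ m q, ∃ p, q - ψ p ∈ 𝔫 ^ m := by
    intro m q
    obtain ⟨p, hp⟩ := exists_sub_mem_map_pow ψ.toRingHom 𝔪 (fun q => by
      refine ⟨algebraMap K R (MvPowerSeries.constantCoeff q), ?_⟩
      rw [hmapn]
      refine fun hu => ?_
      have hu' := MvPowerSeries.isUnit_iff_constantCoeff.1 hu
      simp only [AlgHom.toRingHom_eq_coe, RingHom.coe_coe, AlgHom.commutes, map_sub,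
        isUnit_iff_ne_zero] at hu'
      exact hu' (by
        rw [show algebraMap K S (MvPowerSeries.constantCoeff q)
          = MvPowerSeries.C (MvPowerSeries.constantCoeff q) from by
            rw [MvPowerSeries.algebraMap_apply]; rfl, MvPowerSeries.constantCoeff_C, sub_self])) m q
    exact ⟨p, by rwa [hmapn] at hp⟩
  exact ⟨n, ψ, hmapn, fun m => ⟨hψs m, fun r hr =>
    mem_pow_of_surjective K π j ψ hπJ hjn hmapn (hπs m) (hψs m) (hjJ m) hr⟩⟩

/-- A formally smooth noetherian local algebra over an infinite field with trivial residue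
field extension is a factorial domain. -/
theorem isDomain_and_ufd_of_formallySmooth [IsNoetherianRing R] [Infinite K]
    [Algebra.FormallySmooth K R]
    (hres : Function.Surjective (algebraMap K (ResidueField R))) :
    IsDomain R ∧ UniqueFactorizationMonoid R := by
  obtain ⟨n, ψ, hmap, hψ⟩ := exists_toPowerSeries K hres
  set S := MvPowerSeries (Fin n) K
  set 𝔪 := maximalIdeal R
  set 𝔫 := maximalIdeal S
  let ψm : ∀ m, R ⧸ 𝔪 ^ m →+* S ⧸ 𝔫 ^ m := fun m => Ideal.quotientMap _ ψ.toRingHom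
    (Ideal.map_le_iff_le_comap.1 (by rw [Ideal.map_pow, hmap]))
  have hbij : ∀ m, Function.Bijective (ψm m) := fun m => by
    refine ⟨(injective_iff_map_eq_zero _).2 fun y hy => ?_, fun y => ?_⟩
    · obtain ⟨y, rfl⟩ := Ideal.Quotient.mk_surjective y
      exact Ideal.Quotient.eq_zero_iff_mem.2 ((hψ m).2 y (Ideal.Quotient.eq_zero_iff_mem.1 hy))
    · obtain ⟨y, rfl⟩ := Ideal.Quotient.mk_surjective y
      obtain ⟨p, hp⟩ := (hψ m).1 y
      exact ⟨Ideal.Quotient.mk _ p, (Ideal.Quotient.eq.2 hp).symm⟩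
  let f : ∀ m, AdicCompletion 𝔪 R →+* S ⧸ 𝔫 ^ m := fun m =>
    (ψm m).comp (AdicCompletion.evalₐ 𝔪 m).toRingHom
  have hcomp : ∀ {a b : ℕ} (h : a ≤ b) (z : S ⧸ 𝔫 ^ b), ∀ w : R ⧸ 𝔪 ^ b, ψm b w = z →
      Ideal.Quotient.factor (Ideal.pow_le_pow_right h) z
        = ψm a (Ideal.Quotient.factor (Ideal.pow_le_pow_right h) w) := by
    rintro a b h z w rfl
    obtain ⟨w, rfl⟩ := Ideal.Quotient.mk_surjective w
    rfl
  have hevcompat : ∀ {a b : ℕ} (h : a ≤ b) (y : AdicCompletion 𝔪 R),
      Ideal.Quotient.factor (Ideal.pow_le_pow_right h) (AdicCompletion.evalₐ 𝔪 b y)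
        = AdicCompletion.evalₐ 𝔪 a y := by
    intro a b h y
    obtain ⟨y, rfl⟩ := AdicCompletion.mk_surjective 𝔪 R y
    rw [AdicCompletion.evalₐ_mk, AdicCompletion.evalₐ_mk, Ideal.Quotient.factor_mk]
    exact Ideal.Quotient.eq.2 (by
      have := y.property h
      rw [SModEq.sub_mem, smul_eq_mul, Ideal.mul_top] at this
      simpa using neg_mem this)
  have hf : ∀ {a b : ℕ} (h : a ≤ b), (Ideal.Quotient.factorPow 𝔫 h).comp (f b) = f a :=
    fun {a b} h => RingHom.ext fun y => (hcomp h _ _ rfl).trans (congrArg (ψm a) (hevcompat h y))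
  let F : AdicCompletion 𝔪 R →+* S := IsAdicComplete.liftRingHom 𝔫 f hf
  have hF : ∀ m y, Ideal.Quotient.mk (𝔫 ^ m) (F y) = ψm m (AdicCompletion.evalₐ 𝔪 m y) :=
    fun m y => IsAdicComplete.mk_liftRingHom 𝔫 f hf m y
  have hinj : Function.Injective F := (injective_iff_map_eq_zero _).2 fun y hy =>
    AdicCompletion.ext_evalₐ (I := 𝔪) fun m => (hbij m).1 (by rw [← hF, hy]; simp)
  have hsurj : Function.Surjective F := fun s => by
    choose p hp using fun m => (hψ m).1 s
    have hcauchy : ∀ m, p m ≡ p (m + 1) [SMOD (𝔪 ^ m • ⊤ : Submodule R R)] := fun m => by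
      rw [SModEq.sub_mem, smul_eq_mul, Ideal.mul_top]
      refine (hψ m).2 _ ?_
      rw [map_sub, ← sub_sub_sub_cancel_left (ψ (p (m + 1))) (ψ (p m)) s]
      exact sub_mem (Ideal.pow_le_pow_right m.le_succ (hp (m + 1))) (hp m)
    refine ⟨AdicCompletion.mk 𝔪 R (AdicCompletion.AdicCauchySequence.mk 𝔪 R p hcauchy), ?_⟩
    refine sub_eq_zero.1 (IsHausdorff.haus' (I := 𝔫) _ fun m => ?_)
    rw [SModEq.zero, smul_eq_mul, Ideal.mul_top, ← Ideal.Quotient.eq, hF]
    rw [show AdicCompletion.evalₐ 𝔪 m (AdicCompletion.mk 𝔪 R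
      (AdicCompletion.AdicCauchySequence.mk 𝔪 R p hcauchy)) = Ideal.Quotient.mk _ (p m) from
      AdicCompletion.evalₐ_mk ..]
    exact (Ideal.Quotient.eq.2 (hp m)).symm
  have : IsDomain S := NoZeroDivisors.to_isDomain _
  have : UniqueFactorizationMonoid S := ufd_mvPowerSeries K n
  let e : AdicCompletion 𝔪 R ≃+* S := RingEquiv.ofBijective F ⟨hinj, hsurj⟩
  have : IsDomain (AdicCompletion 𝔪 R) := e.toMulEquiv.isDomain _
  have : UniqueFactorizationMonoid (AdicCompletion 𝔪 R) :=
    e.symm.toMulEquiv.uniqueFactorizationMonoid inferInstance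
  have : Module.FaithfullyFlat R (AdicCompletion 𝔪 R) :=
    Module.FaithfullyFlat.of_flat_of_isLocalHom
  have : IsDomain R := (FaithfulSMul.algebraMap_injective R (AdicCompletion 𝔪 R)).isDomain _
  exact ⟨inferInstance, ufd_of_faithfullyFlat R (AdicCompletion 𝔪 R)⟩

end FLTAgent.AbScheme
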