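import Fermat.Agent.AbScheme.Defs
import Fermat.Agent.AbScheme.Boundary.Stalk
import Fermat.Agent.AbScheme.Boundary.Principal

/-!
Factorial local rings of a smooth variety and divisors cutting out the complement of an affine open.
-/

set_option autoImplicit false

noncomputable section

universe u

namespace FLTAgent.AbScheme

open CategoryTheory AlgebraicGeometry

variable {K : Type u} [Field K] [IsAlgClosed K] (V : Var K)

/-- The local rings are factorial. -/
theorem uniqueFactorizationMonoid_stalk (x : V.X) :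
    UniqueFactorizationMonoid (V.X.presheaf.stalk x) :=
  (isDomain_and_ufd_stalk V.str x).2

omit [IsAlgClosed K] in
theorem Var.isSeparated (V : Var K) : V.X.IsSeparated :=
  ⟨by rw [← Limits.terminal.comp_from V.str]; infer_instance⟩

/-- Near any point the vanishing ideals are generated by one section. -/
theorem exists_local_vanishing_generator {U : V.X.Opens} (hU : IsAffineOpen U)
    (hne : (U : Set V.X).Nonempty) (x : V.X) :
    ∃ (P : V.X.Opens) (b : Γ(V.X, P)) (N : V.X.Opens), x ∈ N ∧ ∃ hNP : N ≤ P,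
      ∀ (y : V.X) (hy : y ∈ N),
        vanishAt U y = Ideal.span {V.X.presheaf.germ P y (hNP hy) b} := by
  have hufd := uniqueFactorizationMonoid_stalk V
  have := LocallyOfFiniteType.isLocallyNoetherian V.str
  obtain ⟨f, -, hf⟩ := exists_vanishAt_eq_span (Var.isSeparated V) hU hne x
  obtain ⟨_, ⟨P, hP', rfl⟩, hx, -⟩ :=
    V.X.isBasis_affineOpens.exists_subset_of_mem_open (Set.mem_univ x) isOpen_univ
  have hP : IsAffineOpen P := hP'
  have : IsNoetherianRing Γ(V.X, P) := IsLocallyNoetherian.component_noetherian ⟨P, hP⟩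
  let _ : Algebra Γ(V.X, P) (V.X.presheaf.stalk x) :=
    TopCat.Presheaf.algebra_section_stalk V.X.presheaf ⟨x, hx⟩
  have hloc : IsLocalization.AtPrime (V.X.presheaf.stalk x) (hP.primeIdealOf ⟨x, hx⟩).asIdeal :=
    hP.isLocalization_stalk ⟨x, hx⟩
  set M := (hP.primeIdealOf ⟨x, hx⟩).asIdeal.primeCompl
  have hJ : vanishAt U x = (vanishOn U P).map (algebraMap Γ(V.X, P) (V.X.presheaf.stalk x)) :=
    vanishAt_eq_map hP hx
  -- a generator which is a section in the vanishing ideal
  obtain ⟨⟨b, s⟩, hbs⟩ := (IsLocalization.mem_map_algebraMap_iff M (V.X.presheaf.stalk x)).1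
    (hJ.le (hf.ge (Ideal.mem_span_singleton_self f)))
  have hspan : vanishAt U x = Ideal.span {algebraMap Γ(V.X, P) (V.X.presheaf.stalk x) b.1} := by
    rw [hf, ← hbs, Ideal.span_singleton_mul_right_unit (IsLocalization.map_units _ s)]
  obtain ⟨G, hG⟩ := IsNoetherian.noetherian (vanishOn U P)
  have hdiv : ∀ i ∈ G, ∃ t : M, ∃ c : Γ(V.X, P), t.1 * i = b.1 * c := fun i hi => by
    have hi' : algebraMap Γ(V.X, P) (V.X.presheaf.stalk x) i ∈ vanishAt U x :=
      hJ ▸ Ideal.mem_map_of_mem _ (hG ▸ Submodule.subset_span hi)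
    obtain ⟨e, he⟩ := Ideal.mem_span_singleton.1 (hspan.le hi')
    obtain ⟨c, t, rfl⟩ := IsLocalization.exists_mk'_eq M e
    refine ⟨t, c, germ_injective_of_isIntegral V.X x hx ?_⟩
    show algebraMap Γ(V.X, P) (V.X.presheaf.stalk x) (t.1 * i) = algebraMap _ _ (b.1 * c)
    rw [map_mul, he, map_mul, mul_left_comm, IsLocalization.mk'_spec']
  choose t c htc using hdiv
  set T : Γ(V.X, P) := ∏ i : G, (t i.1 i.2).1
  have hT : x ∈ V.X.basicOpen T := by
    refine (V.X.mem_basicOpen T x hx).2 ?_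
    show IsUnit (algebraMap Γ(V.X, P) (V.X.presheaf.stalk x) T)
    exact IsLocalization.map_units _ (⟨T, prod_mem fun i _ => (t i.1 i.2).2⟩ : M)
  refine ⟨P, b.1, V.X.basicOpen T, hT, V.X.basicOpen_le T, fun y hy => le_antisymm ?_ ?_⟩
  · rw [vanishAt_eq_map hP (V.X.basicOpen_le T hy), Ideal.map_le_iff_le_comap]
    refine hG.ge.trans (Submodule.span_le.2 ?_)
    intro i hi
    have hu : IsUnit (V.X.presheaf.germ P y (V.X.basicOpen_le T hy) (t i hi).1) :=
      isUnit_of_dvd_unit (map_dvd (V.X.presheaf.germ P y (V.X.basicOpen_le T hy)).hom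
        (Finset.dvd_prod_of_mem (fun j : G => (t j.1 j.2).1) (Finset.mem_univ ⟨i, hi⟩)))
        ((V.X.mem_basicOpen T y _).1 hy)
    rw [SetLike.mem_coe, Ideal.mem_comap, ← Ideal.unit_mul_mem_iff_mem _ hu, ← map_mul, htc,
      map_mul]
    exact Ideal.mul_mem_right _ _ (Ideal.mem_span_singleton_self _)
  · rw [Ideal.span_singleton_le_iff_mem]
    exact germ_mem_vanishAt _ b.2

/-- Every nonempty affine open is the complement of the support of an effective divisor. -/
theorem exists_isBoundary {U : V.X.Opens} (hU : IsAffineOpen U) (hne : (U : Set V.X).Nonempty) :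
    ∃ D : CDiv V.X, D.IsBoundary U := by
  have hufd := uniqueFactorizationMonoid_stalk V
  choose f hf0 hf using exists_vanishAt_eq_span (Var.isSeparated V) hU hne
  have hinj : ∀ y : V.X, Function.Injective (algebraMap (V.X.presheaf.stalk y) V.fn) :=
    fun y => IsFractionRing.injective _ _
  let u : ∀ y : V.X, V.fnˣ := fun y =>
    Units.mk0 (algebraMap (V.X.presheaf.stalk y) V.fn (f y))
      ((map_ne_zero_iff _ (hinj y)).2 (hf0 y))
  have hφ : (fun y => (QuotientGroup.mk (u y) : V.fnˣ ⧸ unitsAt V.X y)) ∈ cartier V.X := by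
    intro x
    obtain ⟨P, b, N, hxN, hNP, hN⟩ := exists_local_vanishing_generator V hU hne x
    have : Nonempty P := ⟨⟨x, hNP hxN⟩⟩
    have hb : ∀ y hy, algebraMap _ V.fn (V.X.presheaf.germ P y (hNP hy) b) =
        V.X.germToFunctionField P b := fun y hy => Scheme.algebraMap_germ_eq_germToFunctionField _ _ _
    have hass : ∀ y (hy : y ∈ N), ∃ w : (V.X.presheaf.stalk y)ˣ,
        f y * w = V.X.presheaf.germ P y (hNP hy) b := fun y hy =>
      Ideal.span_singleton_eq_span_singleton.1 ((hf y).symm.trans (hN y hy))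
    obtain ⟨w, hw⟩ := hass x hxN
    have hb0 : V.X.germToFunctionField P b ≠ 0 := by
      rw [← hb x hxN, ← hw]
      exact (map_ne_zero_iff _ (hinj x)).2 (mul_ne_zero (hf0 x) w.ne_zero)
    refine ⟨N, hxN, Units.mk0 _ hb0, fun y hy => ?_⟩
    obtain ⟨w, hw⟩ := hass y hy
    refine QuotientGroup.eq.2 ⟨w, ?_⟩
    rw [eq_inv_mul_iff_mul_eq]
    refine Units.ext ?_
    show algebraMap _ V.fn (f y) * algebraMap _ V.fn (w : V.X.presheaf.stalk y) = _
    rw [← map_mul, hw]
    exact hb y hy
  refine ⟨⟨_, hφ⟩, fun y => ⟨u y, rfl, f y, rfl⟩, hU, hne, ?_⟩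
  ext y
  show ¬ ((QuotientGroup.mk (u y) : V.fnˣ ⧸ unitsAt V.X y) = 1) ↔ y ∉ U
  rw [QuotientGroup.eq_one_iff]
  refine not_congr ⟨?_, fun hy => ?_⟩
  · rintro ⟨w, hw⟩
    by_contra hy
    have : (w : V.X.presheaf.stalk y) = f y := hinj y (congrArg Units.val hw)
    exact vanishAt_le_maximalIdeal hy ((hf y).ge (Ideal.mem_span_singleton_self _))
      (this ▸ w.isUnit)
  · have htop := vanishAt_eq_top hy
    rw [hf y, Ideal.span_singleton_eq_top] at htop
    exact ⟨htop.unit, Units.ext rfl⟩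

end FLTAgent.AbScheme
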