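import Fermat.Agent.AbScheme.Defs
import Fermat.Agent.AbScheme.Growth.Coord
import Fermat.Agent.AbScheme.Growth.Chart

/-!
The growth of the spaces of multiples of a divisor with affine complement.
-/

set_option autoImplicit false

noncomputable section

universe u

namespace FLTAgent.AbScheme

open CategoryTheory AlgebraicGeometry

namespace Growth

variable {K : Type u} [Field K] {V : Var K}

theorem mk_pow_apply {D : CDiv V.X} {x : V.X} {f : V.fnˣ} (h : D.1 x = QuotientGroup.mk f) (m : ℕ) :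
    (D ^ m).1 x = QuotientGroup.mk (f ^ m) := by
  rw [SubmonoidClass.coe_pow, Pi.pow_apply, h]
  rfl

/-- Being a section of the divisor does not depend on the local equation. -/
theorem mul_mem_stalkRange_of_eq {x : V.X} {f f' : V.fnˣ}
    (h : (QuotientGroup.mk f : V.fnˣ ⧸ unitsAt V.X x) = QuotientGroup.mk f') {a : V.fn}
    (ha : a * f ∈ stalkRange x) : a * f' ∈ stalkRange x := by
  obtain ⟨r, hr⟩ := QuotientGroup.eq.1 h
  have h1 : (f' : V.fn) = f * algebraMap (V.X.presheaf.stalk x) V.fn r := by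
    have h2 := congrArg (fun z : V.fnˣ => ((f * z : V.fnˣ) : V.fn)) hr
    simp only [mul_inv_cancel_left] at h2
    rw [← h2, Units.val_mul]
    rfl
  rw [h1, ← mul_assoc]
  exact mul_mem ha ⟨_, rfl⟩

theorem mem_Lspace_iff {D : CDiv V.X} {a : V.fn} : a ∈ Lspace D ↔
    ∀ x, ∀ f : V.fnˣ, D.1 x = QuotientGroup.mk f → a * f ∈ stalkRange x := Iff.rfl

theorem mem_Lspace_of_forall {D : CDiv V.X} {a : V.fn}
    (h : ∀ x, ∃ f : V.fnˣ, D.1 x = QuotientGroup.mk f ∧ a * f ∈ stalkRange x) : a ∈ Lspace D := by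
  intro x f' hf'
  obtain ⟨f, hf, ha⟩ := h x
  exact mul_mem_stalkRange_of_eq (hf.symm.trans hf') ha

theorem one_mem_Lspace : (1 : V.fn) ∈ Lspace ((1 : CDiv V.X)) :=
  mem_Lspace_of_forall fun x => ⟨1, rfl, by rw [Units.val_one, mul_one]; exact one_mem _⟩

theorem mul_mem_Lspace {D E : CDiv V.X} {a b : V.fn} (ha : a ∈ Lspace D) (hb : b ∈ Lspace E) :
    a * b ∈ Lspace (D * E) := by
  refine mem_Lspace_of_forall fun x => ?_
  obtain ⟨f, hf⟩ := QuotientGroup.mk_surjective (D.1 x)
  obtain ⟨f', hf'⟩ := QuotientGroup.mk_surjective (E.1 x)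
  refine ⟨f * f', ?_, ?_⟩
  · show D.1 x * E.1 x = _
    rw [← hf, ← hf']
    rfl
  · rw [Units.val_mul, mul_mul_mul_comm]
    exact mul_mem (ha x f hf.symm) (hb x f' hf'.symm)

theorem Lspace_le_mul {D E : CDiv V.X} (hE : E.IsEff) : Lspace D ≤ Lspace (D * E) := by
  intro a ha
  refine mem_Lspace_of_forall fun x => ?_
  obtain ⟨f, hf⟩ := QuotientGroup.mk_surjective (D.1 x)
  obtain ⟨f', hf', hr⟩ := hE x
  refine ⟨f * f', ?_, ?_⟩
  · show D.1 x * E.1 x = _
    rw [← hf, hf']
    rfl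
  · rw [Units.val_mul, ← mul_assoc]
    exact mul_mem (ha x f hf.symm) hr

theorem isEff_pow {D : CDiv V.X} (hD : D.IsEff) (m : ℕ) : (D ^ m).IsEff := by
  intro x
  obtain ⟨f, hf, hr⟩ := hD x
  exact ⟨f ^ m, mk_pow_apply hf m, by rw [Units.val_pow_eq_pow_val]; exact pow_mem hr m⟩

theorem Lspace_pow_mono {D : CDiv V.X} (hD : D.IsEff) {a b : ℕ} (h : a ≤ b) :
    Lspace (D ^ a) ≤ Lspace (D ^ b) := by
  obtain ⟨c, rfl⟩ := Nat.exists_eq_add_of_le h
  rw [pow_add]
  exact Lspace_le_mul (isEff_pow hD c)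

/-- An open affine chart with smooth coordinates in some number. -/
theorem exists_standard_chart (V : Var K) :
    ∃ (n : ℕ) (W : V.X.Opens) (_ : IsAffineOpen W) (_ : genericPoint V.X ∈ W),
      (V.constHom W).IsStandardSmoothOfRelativeDimension n := by
  obtain ⟨U₀, -, W, hW, hx, e, hf⟩ :=
    (Smooth.iff_forall_exists_isStandardSmooth V.str).1 inferInstance (genericPoint V.X)
  have hU₀ : U₀ = ⊤ := by
    refine top_le_iff.1 fun p _ => ?_
    haveI : Subsingleton (Spec (CommRingCat.of K) : Scheme.{u}) :=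
      inferInstanceAs (Subsingleton (PrimeSpectrum K))
    rw [Subsingleton.elim p (V.str (genericPoint V.X))]
    exact e hx
  subst hU₀
  algebraize [(V.str.appLE ⊤ W e).hom]
  obtain ⟨ι, σ, hσ, hι, ⟨P⟩⟩ := Algebra.IsStandardSmooth.out
    (R := Γ(Spec (CommRingCat.of K), ⊤)) (S := Γ(V.X, W))
  have h : (V.str.appLE ⊤ W e).hom.IsStandardSmoothOfRelativeDimension P.dimension :=
    (⟨ι, σ, hσ, hι, P, rfl⟩ : Algebra.IsStandardSmoothOfRelativeDimension P.dimension
      Γ(Spec (CommRingCat.of K), ⊤) Γ(V.X, W))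
  exact ⟨P.dimension, W, hW, hx,
    RingHom.isStandardSmoothOfRelativeDimension_respectsIso.2 _
      (Scheme.ΓSpecIso (CommRingCat.of K)).symm.commRingCatIsoToRingEquiv h⟩

/-- An open affine chart carrying smooth coordinates. -/
theorem exists_smooth_chart (g : ℕ) [SmoothOfRelativeDimension g V.str] :
    ∃ (W : V.X.Opens) (_ : IsAffineOpen W) (_ : genericPoint V.X ∈ W),
      (V.constHom W).IsStandardSmoothOfRelativeDimension g := by
  obtain ⟨U₀, -, W, hW, hx, e, hf⟩ :=
    SmoothOfRelativeDimension.exists_isStandardSmoothOfRelativeDimension (n := g) (f := V.str)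
      (genericPoint V.X)
  have hU₀ : U₀ = ⊤ := by
    refine top_le_iff.1 fun p _ => ?_
    haveI : Subsingleton (Spec (CommRingCat.of K) : Scheme.{u}) :=
      inferInstanceAs (Subsingleton (PrimeSpectrum K))
    rw [Subsingleton.elim p (V.str (genericPoint V.X))]
    exact e hx
  subst hU₀
  refine ⟨W, hW, hx, ?_⟩
  exact RingHom.isStandardSmoothOfRelativeDimension_respectsIso.2 _
    (Scheme.ΓSpecIso (CommRingCat.of K)).symm.commRingCatIsoToRingEquiv hf

theorem algebraMap_eq_germ_constHom (W : V.X.Opens) (hW : genericPoint V.X ∈ W) (c : K) :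
    algebraMap K V.fn c =
      V.X.presheaf.germ W (genericPoint V.X) hW (V.constHom W c) := by
  show V.X.presheaf.germ ⊤ (genericPoint V.X) trivial (V.constHom ⊤ c) = _
  rw [← V.X.presheaf.germ_res (homOfLE (le_top : W ≤ ⊤)) (genericPoint V.X) hW,
    ConcreteCategory.comp_apply]
  congr 1
  simp only [Var.constHom, ← ConcreteCategory.comp_apply, Category.assoc]
  rw [Scheme.Hom.appLE_map]

variable [IsAlgClosed K] {g : ℕ} [SmoothOfRelativeDimension g V.str] {D : CDiv V.X}
  {U : V.X.Opens}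

omit [IsAlgClosed K] [SmoothOfRelativeDimension g V.str] in
theorem exists_finrank_bound_of_chart (hD : D.IsBoundary U) {W : V.X.Opens} (hW : IsAffineOpen W)
    (hgen : genericPoint V.X ∈ W) (hsm : (V.constHom W).IsStandardSmoothOfRelativeDimension g) :
    ∃ C, ∀ m, FiniteDimensional K (Lspace (D ^ m)) ∧
      Module.finrank K (Lspace (D ^ m)) ≤ C * (m + 1) ^ g := by
  haveI : Nonempty W := ⟨⟨_, hgen⟩⟩
  haveI := functionField_isFractionRing_of_isAffineOpen V.X W hW
  letI : Algebra K Γ(V.X, W) := (V.constHom W).toAlgebra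
  haveI : IsScalarTower K Γ(V.X, W) V.fn :=
    IsScalarTower.of_algebraMap_eq fun c => algebraMap_eq_germ_constHom W hgen c
  haveI : Algebra.IsStandardSmoothOfRelativeDimension g K Γ(V.X, W) := hsm
  obtain ⟨t, C, f, hC, hcov⟩ := exists_charts D
  refine exists_finrank_le_of_smooth Γ(V.X, W) g (fun i : t => ((f i.1 : V.fnˣ) : V.fn))
    (fun i => Units.ne_zero _) (fun m => Lspace (D ^ m)) fun O hO => ?_
  obtain ⟨y, hy⟩ := exists_centre O hO
  obtain ⟨x, hxt, hyx⟩ := hcov y
  refine ⟨⟨x, hxt⟩, fun m a ha => hy (C x) hyx _ ?_⟩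
  refine mem_sectionRange (hC x).1 _ fun z hz => ?_
  have h := ha z _ (mk_pow_apply ((hC x).2.2 z hz) m)
  rwa [Units.val_pow_eq_pow_val] at h

omit [IsAlgClosed K] in
theorem exists_finrank_bound (hD : D.IsBoundary U) :
    ∃ C, ∀ m, FiniteDimensional K (Lspace (D ^ m)) ∧
      Module.finrank K (Lspace (D ^ m)) ≤ C * (m + 1) ^ g := by
  obtain ⟨W, hW, hgen, hsm⟩ := exists_smooth_chart (V := V) g
  exact exists_finrank_bound_of_chart hD hW hgen hsm

omit [IsAlgClosed K] in
/-- Sections on the complement have bounded poles. -/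
theorem exists_mem_Lspace (hD : D.IsBoundary U) (hU : genericPoint V.X ∈ U) (r : Γ(V.X, U)) :
    ∃ e, V.X.presheaf.germ U (genericPoint V.X) hU r ∈ Lspace (D ^ e) := by
  obtain ⟨t, C, f, hC, hcov⟩ := exists_charts D
  have hchart : ∀ x, ∃ e : ℕ, ∀ z ∈ C x, ∀ e', e ≤ e' →
      V.X.presheaf.germ U (genericPoint V.X) hU r * (f x : V.fn) ^ e' ∈ stalkRange z := by
    intro x
    have hgx : genericPoint V.X ∈ C x := genericPoint_mem (hC x).2.1
    have heq : ∀ z ∈ C x, (f x : V.fn) ∈ stalkRange z := by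
      intro z hz
      obtain ⟨f', hf', hr⟩ := hD.eff z
      have h := mul_mem_stalkRange_of_eq (a := 1) (hf'.symm.trans ((hC x).2.2 z hz))
        (by rw [one_mul]; exact hr)
      rwa [one_mul] at h
    obtain ⟨f₀, hf₀⟩ := mem_sectionRange (hC x).1 hgx heq
    obtain ⟨e, he⟩ := exists_pow_mul_mem (hC x).1 hgx (f₀ := f₀)
      (a := V.X.presheaf.germ U (genericPoint V.X) hU r) fun P hP => by
        set y := (hC x).1.fromSpec P with hy
        have hyC : y ∈ C x := (hC x).1.range_fromSpec.le ⟨P, rfl⟩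
        obtain ⟨u, hu⟩ := isUnit_germ_of_notMem (hC x).1 P hyC hP
        have hfu : f x ∈ unitsAt V.X y := ⟨u, Units.ext <| by
          show algebraMap (V.X.presheaf.stalk y) V.fn (u : V.X.presheaf.stalk y) = _
          rw [hu, RingHom.algebraMap_toAlgebra, ← ConcreteCategory.comp_apply,
            V.X.presheaf.germ_stalkSpecializes]
          exact hf₀⟩
        have h1 : D.1 y = 1 := by
          rw [(hC x).2.2 y hyC]
          exact (QuotientGroup.eq_one_iff _).2 hfu
        have h2 : y ∈ U := by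
          by_contra h2
          exact (hD.supp_eq.ge h2 : y ∈ D.supp) h1
        exact germ_mem_stalkRange h2 hU r
    refine ⟨e, fun z hz e' he' => ?_⟩
    obtain ⟨l, rfl⟩ := Nat.exists_eq_add_of_le he'
    rw [pow_add, ← mul_assoc, mul_comm _ ((f x : V.fn) ^ e), ← hf₀]
    exact mul_mem (sectionRange_le_stalkRange hz hgx he)
      (pow_mem (sectionRange_le_stalkRange hz hgx ⟨f₀, rfl⟩) l)
  choose e he using hchart
  refine ⟨t.sup e, mem_Lspace_of_forall fun z => ?_⟩
  obtain ⟨x, hxt, hzx⟩ := hcov z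
  refine ⟨f x ^ t.sup e, mk_pow_apply ((hC x).2.2 z hzx) _, ?_⟩
  rw [Units.val_pow_eq_pow_val]
  exact he x z hzx _ (Finset.le_sup hxt)

end Growth

variable {K : Type u} [Field K] [IsAlgClosed K] {V : Var K} {g : ℕ}
  [SmoothOfRelativeDimension g V.str] {D : CDiv V.X} {U : V.X.Opens}

omit [IsAlgClosed K] in
theorem finiteDimensional_Lspace (hD : D.IsBoundary U) (m : ℕ) :
    FiniteDimensional K (Lspace (D ^ m)) := by
  obtain ⟨n, W, hW, hgen, hsm⟩ := Growth.exists_standard_chart V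
  obtain ⟨C, hC⟩ := Growth.exists_finrank_bound_of_chart (g := n) hD hW hgen hsm
  exact (hC m).1

omit [IsAlgClosed K] in
theorem exists_lDim_le (hD : D.IsBoundary U) :
    ∃ C : ℕ, ∀ m : ℕ, lDim (D ^ m) ≤ C * (m + 1) ^ g := by
  obtain ⟨C, hC⟩ := Growth.exists_finrank_bound (g := g) hD
  exact ⟨C, fun m => (hC m).2⟩

omit [IsAlgClosed K] in
theorem exists_le_lDim (hD : D.IsBoundary U) :
    ∃ a : ℕ, 0 < a ∧ ∀ m : ℕ, m ^ g ≤ lDim (D ^ (a * m)) := by
  classical
  obtain ⟨W, hW, hgen, hsm⟩ := Growth.exists_smooth_chart (V := V) g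
  haveI : Nonempty W := ⟨⟨_, hgen⟩⟩
  haveI := functionField_isFractionRing_of_isAffineOpen V.X W hW
  letI : Algebra K Γ(V.X, W) := (V.constHom W).toAlgebra
  haveI : IsScalarTower K Γ(V.X, W) V.fn :=
    IsScalarTower.of_algebraMap_eq fun c => Growth.algebraMap_eq_germ_constHom W hgen c
  haveI : Algebra.IsStandardSmoothOfRelativeDimension g K Γ(V.X, W) := hsm
  obtain ⟨φ, hφ⟩ := Growth.exists_injective_coords (K := K) Γ(V.X, W) (F := V.fn) g
  letI : Algebra (MvPolynomial (Fin g) K) V.fn := φ.toRingHom.toAlgebra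
  haveI : IsScalarTower K (MvPolynomial (Fin g) K) V.fn :=
    IsScalarTower.of_algebraMap_eq fun c => (φ.commutes c).symm
  obtain ⟨p, hp⟩ := hD.nonempty
  have hU : genericPoint V.X ∈ U := Growth.genericPoint_mem hp
  haveI : Nonempty U := ⟨⟨p, hp⟩⟩
  haveI := functionField_isFractionRing_of_isAffineOpen V.X U hD.affine
  obtain ⟨b, hb⟩ := IsLocalization.exist_integer_multiples_of_finite
    (nonZeroDivisors Γ(V.X, U)) fun i : Fin g => φ (MvPolynomial.X i)
  choose r hr using hb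
  obtain ⟨e₀, he₀⟩ := Growth.exists_mem_Lspace hD hU b.1
  choose e₁ he₁ using fun i => Growth.exists_mem_Lspace hD hU (r i)
  have hs : algebraMap Γ(V.X, U) V.fn b ≠ 0 :=
    IsFractionRing.to_map_ne_zero_of_mem_nonZeroDivisors b.2
  refine ⟨(e₀ + ∑ i, e₁ i) * g + 1, Nat.succ_pos _, fun m => ?_⟩
  have h := Growth.exists_le_finrank (K := K) (g := g) (F := V.fn) hφ (fun k => Lspace (D ^ k))
    (fun k => finiteDimensional_Lspace hD k) (by rw [pow_zero]; exact Growth.one_mem_Lspace)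
    (fun a a' x y hx hy => by rw [pow_add]; exact Growth.mul_mem_Lspace hx hy) hs
    (e := e₀ + ∑ i, e₁ i) (Growth.Lspace_pow_mono hD.eff (Nat.le_add_right _ _) he₀)
    (fun i => by
      have h1 : algebraMap Γ(V.X, U) V.fn (r i) =
          algebraMap Γ(V.X, U) V.fn b * φ (MvPolynomial.X i) :=
        (hr i).trans (Algebra.smul_def _ _)
      show algebraMap Γ(V.X, U) V.fn b * φ (MvPolynomial.X i) ∈ _
      rw [← h1]
      exact Growth.Lspace_pow_mono hD.eff
        ((Finset.single_le_sum (fun _ _ => Nat.zero_le _) (Finset.mem_univ i)).trans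
          (Nat.le_add_left _ _)) (he₁ i)) m
  haveI := finiteDimensional_Lspace hD (((e₀ + ∑ i, e₁ i) * g + 1) * m)
  refine ((Nat.pow_le_pow_left (Nat.le_succ m) g).trans h).trans ?_
  exact Submodule.finrank_mono (Growth.Lspace_pow_mono hD.eff
    (Nat.mul_le_mul_right m (Nat.le_succ _)))

end FLTAgent.AbScheme
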