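import Fermat.Agent.AbScheme.Defs

/-!
Functions regular at points, their behaviour under pullback, and the spaces of multiples of a divisor
with affine complement.
-/

set_option autoImplicit false
set_option linter.unusedSectionVars false
set_option linter.style.haveILetI false

noncomputable section

universe u

namespace FLTAgent.AbScheme

open CategoryTheory AlgebraicGeometry TopologicalSpace Opposite

variable {X Y : Scheme.{u}} [IsIntegral X] [IsIntegral Y]

/-- The functions regular at a point. -/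
def regAt (x : X) : Subring X.functionField :=
  (algebraMap (X.presheaf.stalk x) X.functionField).range

theorem mem_regAt {x : X} {a : X.functionField} :
    a ∈ regAt x ↔ a ∈ (algebraMap (X.presheaf.stalk x) X.functionField).range := Iff.rfl

theorem germToFunctionField_mem_regAt {U : X.Opens} [Nonempty U] {x : X} (hx : x ∈ U)
    (r : Γ(X, U)) : X.germToFunctionField U r ∈ regAt x :=
  ⟨_, Scheme.algebraMap_germ_eq_germToFunctionField (X := X) hx r⟩

theorem unit_mem_regAt {x : X} {f : (X.functionField)ˣ} (h : f ∈ unitsAt X x) :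
    (f : X.functionField) ∈ regAt x ∧ ((f⁻¹ : (X.functionField)ˣ) : X.functionField) ∈ regAt x := by
  obtain ⟨r, rfl⟩ := h
  exact ⟨⟨r, rfl⟩, ⟨((r⁻¹ : (X.presheaf.stalk x)ˣ) : X.presheaf.stalk x), rfl⟩⟩

theorem mul_mem_regAt_congr {x : X} {f f' : (X.functionField)ˣ}
    (h : (QuotientGroup.mk f : (X.functionField)ˣ ⧸ unitsAt X x) = QuotientGroup.mk f')
    {a : X.functionField} (ha : a * f ∈ regAt x) : a * f' ∈ regAt x := by
  have h1 := (unit_mem_regAt (QuotientGroup.eq.1 h)).1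
  have e : a * (f' : X.functionField) = a * f * ((f⁻¹ * f' : (X.functionField)ˣ) : X.functionField) := by
    rw [Units.val_mul, mul_assoc, ← mul_assoc (f : X.functionField), Units.mul_inv, one_mul]
  rw [e]
  exact mul_mem ha h1

/-- A function regular at every point of an open set is a section over it. -/
theorem exists_section {W : X.Opens} [Nonempty W] {a : X.functionField} (ha : ∀ x ∈ W, a ∈ regAt x) :
    ∃ r : Γ(X, W), X.germToFunctionField W r = a := by
  have key : ∀ x : W, ∃ (O : X.Opens) (_ : (x : X) ∈ O) (hO : O ≤ W) (r : Γ(X, O)),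
      ∀ [Nonempty O], X.germToFunctionField O r = a := by
    rintro ⟨x, hx⟩
    obtain ⟨s, hs⟩ := ha x hx
    obtain ⟨O, hxO, r, rfl⟩ := X.presheaf.exists_germ_eq s
    refine ⟨O ⊓ W, ⟨hxO, hx⟩, inf_le_right, X.presheaf.map (homOfLE inf_le_left).op r, ?_⟩
    intro _
    have hx' : x ∈ O ⊓ W := ⟨hxO, hx⟩
    rw [← hs, ← Scheme.algebraMap_germ_eq_germToFunctionField (X := X) (x := x) hx',
      TopCat.Presheaf.germ_res_apply]
  choose O hxO hO r hr using key
  have hne : ∀ x, Nonempty (O x) := fun x => ⟨⟨x, hxO x⟩⟩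
  obtain ⟨R, hR, -⟩ := X.sheaf.existsUnique_gluing' (U := O) W (fun x => homOfLE (hO x))
    (fun x hx => Opens.mem_iSup.2 ⟨⟨x, hx⟩, hxO ⟨x, hx⟩⟩) r (by
      intro i j
      by_cases h : Nonempty ↥(O i ⊓ O j)
      · haveI : Nonempty ↥(O i ⊓ O j) := h
        haveI := hne i; haveI := hne j
        refine @Scheme.germToFunctionField_injective X _ (O i ⊓ O j) h _ _ ?_
        show X.presheaf.germ _ _ _ (X.presheaf.map _ (r i)) =
          X.presheaf.germ _ _ _ (X.presheaf.map _ (r j))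
        rw [TopCat.Presheaf.germ_res_apply, TopCat.Presheaf.germ_res_apply]
        exact ((@hr i (hne i)).trans (@hr j (hne j)).symm :)
      · have e : O i ⊓ O j = ⊥ := eq_bot_iff.2 fun y hy => (h ⟨⟨y, hy⟩⟩).elim
        exact (CommRingCat.subsingleton_of_isTerminal (X.sheaf.isTerminalOfEqEmpty e)).elim _ _)
  obtain ⟨x₀⟩ := ‹Nonempty W›
  refine ⟨R, ?_⟩
  haveI := hne x₀
  rw [← hr x₀, ← hR x₀]
  exact (TopCat.Presheaf.germ_res_apply X.presheaf (homOfLE (hO x₀)) _ _ R).symm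

section Pull

variable (π : X ⟶ Y) (hπ : π (genericPoint X) = genericPoint Y)

theorem fnMap_mem_regAt {x : X} {a : Y.functionField} (ha : a ∈ regAt (π x)) :
    fnMap π hπ a ∈ regAt x := by
  obtain ⟨r, rfl⟩ := ha
  exact ⟨_, (fnMap_algebraMap π hπ x r).symm⟩

theorem pull_apply (D : CDiv Y) {x : X} {f : (Y.functionField)ˣ}
    (h : D.1 (π x) = QuotientGroup.mk f) :
    (CDiv.pull π hπ D).1 x = QuotientGroup.mk (Units.map (fnMap π hπ).toMonoidHom f) := by
  show eqMapAt π hπ x (D.1 (π x)) = _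
  rw [h]
  rfl

/-- A function is regular where a unit pulls back to a unit. -/
theorem mem_unitsAt_of_map {x : X} {f : (Y.functionField)ˣ}
    (hf : (f : Y.functionField) ∈ regAt (π x))
    (h : Units.map (fnMap π hπ).toMonoidHom f ∈ unitsAt X x) : f ∈ unitsAt Y (π x) := by
  obtain ⟨r, hr⟩ := hf
  obtain ⟨s, hs⟩ := h
  have e : π.stalkMap x r = (s : X.presheaf.stalk x) :=
    IsFractionRing.injective (X.presheaf.stalk x) X.functionField <| by
      rw [← fnMap_algebraMap π hπ x r, hr]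
      exact (congrArg Units.val hs).symm
  have hu : IsUnit r := IsLocalHom.map_nonunit (f := (π.stalkMap x).hom) r (by
    show IsUnit (π.stalkMap x r)
    rw [e]
    exact s.isUnit)
  exact ⟨hu.unit, Units.ext hr⟩

theorem CDiv.IsEff.pull {D : CDiv Y} (hD : D.IsEff) : (CDiv.pull π hπ D).IsEff := fun x => by
  obtain ⟨f, h1, h2⟩ := hD (π x)
  exact ⟨_, pull_apply π hπ D h1, fnMap_mem_regAt π hπ h2⟩

theorem CDiv.supp_pull {D : CDiv Y} (hD : D.IsEff) :
    (CDiv.pull π hπ D).supp = π ⁻¹' D.supp := by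
  ext x
  obtain ⟨f, h1, h2⟩ := hD (π x)
  show (CDiv.pull π hπ D).1 x ≠ 1 ↔ D.1 (π x) ≠ 1
  rw [pull_apply π hπ D h1, h1, ne_eq, ne_eq, QuotientGroup.eq_one_iff, QuotientGroup.eq_one_iff,
    not_iff_not]
  exact ⟨mem_unitsAt_of_map π hπ h2, fun ⟨r, hr⟩ => ⟨Units.map (π.stalkMap x).hom.toMonoidHom r,
    Units.ext ((fnMap_algebraMap π hπ x r).symm.trans (congrArg (fnMap π hπ) (congrArg Units.val hr)))⟩⟩

end Pull

theorem CDiv.IsEff.mul {D E : CDiv X} (hD : D.IsEff) (hE : E.IsEff) : (D * E).IsEff := fun x => by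
  obtain ⟨f, h1, h2⟩ := hD x
  obtain ⟨g, h3, h4⟩ := hE x
  refine ⟨f * g, ?_, mul_mem (show (f : X.functionField) ∈ regAt x from h2) h4⟩
  show D.1 x * E.1 x = _
  rw [h1, h3]
  rfl

theorem CDiv.supp_mul {D E : CDiv X} (hD : D.IsEff) (hE : E.IsEff) :
    (D * E).supp = D.supp ∪ E.supp := by
  ext x
  obtain ⟨f, h1, ⟨r, hr⟩⟩ := hD x
  obtain ⟨g, h3, ⟨s, hs⟩⟩ := hE x
  show D.1 x * E.1 x ≠ 1 ↔ D.1 x ≠ 1 ∨ E.1 x ≠ 1
  constructor
  · intro h
    by_contra h'
    push Not at h'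
    exact h (by rw [h'.1, h'.2]; exact one_mul (1 : (X.functionField)ˣ ⧸ unitsAt X x))
  · intro h he
    rw [h1, h3, ← QuotientGroup.mk_mul, QuotientGroup.eq_one_iff] at he
    obtain ⟨t, ht⟩ := he
    have e : r * s = (t : X.presheaf.stalk x) :=
      IsFractionRing.injective (X.presheaf.stalk x) X.functionField <| by
        rw [map_mul, hr, hs, ← Units.val_mul]
        exact (congrArg Units.val ht).symm
    have hu : IsUnit (r * s) := e ▸ t.isUnit
    rw [IsUnit.mul_iff] at hu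
    rcases h with h | h
    · exact h (h1.trans ((QuotientGroup.eq_one_iff _).2 ⟨hu.1.unit, Units.ext hr⟩))
    · exact h (h3.trans ((QuotientGroup.eq_one_iff _).2 ⟨hu.2.unit, Units.ext hs⟩))

variable {K : Type u} [Field K] {V : Var K}

theorem mem_Lspace_iff {D : CDiv V.X} {a : V.fn} :
    a ∈ Lspace D ↔ ∀ x, ∀ f : V.fnˣ, D.1 x = QuotientGroup.mk f → a * f ∈ regAt x := Iff.rfl

theorem mem_Lspace_of_exists {D : CDiv V.X} {a : V.fn}
    (h : ∀ x, ∃ f : V.fnˣ, D.1 x = QuotientGroup.mk f ∧ a * f ∈ regAt x) : a ∈ Lspace D :=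
  fun x g hg => by
    obtain ⟨f, h1, h2⟩ := h x
    exact mul_mem_regAt_congr (h1.symm.trans hg) h2

theorem mul_mem_Lspace {D E : CDiv V.X} {a b : V.fn} (ha : a ∈ Lspace D) (hb : b ∈ Lspace E) :
    a * b ∈ Lspace (D * E) := by
  refine mem_Lspace_of_exists fun x => ?_
  obtain ⟨f, hf⟩ := QuotientGroup.mk_surjective (D.1 x)
  obtain ⟨g, hg⟩ := QuotientGroup.mk_surjective (E.1 x)
  refine ⟨f * g, ?_, ?_⟩
  · show D.1 x * E.1 x = _
    rw [← hf, ← hg]
    rfl
  · rw [Units.val_mul, mul_mul_mul_comm]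
    exact mul_mem (ha x f hf.symm) (hb x g hg.symm)

theorem Lspace_mono {D E : CDiv V.X} (hE : E.IsEff) : Lspace D ≤ Lspace (D * E) := fun a ha => by
  rw [← mul_one a]
  refine mul_mem_Lspace ha (mem_Lspace_of_exists fun x => ?_)
  obtain ⟨f, h1, h2⟩ := hE x
  exact ⟨f, h1, by rw [one_mul]; exact h2⟩

theorem regAt_of_mem_Lspace {D : CDiv V.X} {a : V.fn} (ha : a ∈ Lspace D) {x : V.X}
    (hx : x ∉ D.supp) : a ∈ regAt x := by
  have h := ha x 1 (by simpa [CDiv.supp] using hx)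
  simpa [mem_regAt] using h

theorem CDiv.IsEff.one : (1 : CDiv V.X).IsEff := fun x => ⟨1, rfl, ⟨1, map_one _⟩⟩

theorem CDiv.IsEff.pow {D : CDiv V.X} (hD : D.IsEff) : ∀ m : ℕ, (D ^ m).IsEff
  | 0 => by rw [pow_zero]; exact CDiv.IsEff.one
  | m + 1 => by rw [pow_succ]; exact (CDiv.IsEff.pow hD m).mul hD

theorem Lspace_pow_mono {D : CDiv V.X} (hD : D.IsEff) {m m' : ℕ} (h : m ≤ m') :
    Lspace (D ^ m) ≤ Lspace (D ^ m') := by
  obtain ⟨k, rfl⟩ := Nat.exists_eq_add_of_le h
  rw [pow_add]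
  exact Lspace_mono (hD.pow k)

/-- A function regular on the affine part lies in some `L(mD)`. -/
theorem exists_mem_Lspace_pow {D : CDiv V.X} {U : V.X.Opens} (hD : D.IsBoundary U) {a : V.fn}
    (ha : ∀ x ∈ U, a ∈ regAt x) : ∃ m, a ∈ Lspace (D ^ m) := by
  have : CompactSpace V.X := QuasiCompact.compactSpace_of_compactSpace V.str
  have key : ∀ x : V.X, ∃ (P : V.X.Opens) (f : V.fnˣ) (m : ℕ), x ∈ P ∧
      (∀ y ∈ P, D.1 y = QuotientGroup.mk f) ∧ ∀ y ∈ P, a * (f : V.fn) ^ m ∈ regAt y := by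
    intro x
    obtain ⟨O, hxO, f, hf⟩ := D.2 x
    obtain ⟨_, ⟨P, hP, rfl⟩, hxP, hPO⟩ :=
      V.X.isBasis_affineOpens.exists_subset_of_mem_open hxO O.isOpen
    haveI : Nonempty P := ⟨⟨x, hxP⟩⟩
    have hfr : ∀ y ∈ P, (f : V.fn) ∈ regAt y := fun y hy => by
      obtain ⟨f', h1, h2⟩ := hD.eff y
      have := mul_mem_regAt_congr (h1.symm.trans (hf y (hPO hy))) (a := 1) (by rw [one_mul]; exact h2)
      rwa [one_mul] at this
    obtain ⟨φ, hφ⟩ := exists_section hfr
    have hsub : ∀ y ∈ V.X.basicOpen φ, y ∈ U := fun y hy => by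
      by_contra hyU
      have hyP : y ∈ P := V.X.basicOpen_le φ hy
      have hs : y ∈ D.supp := by rw [hD.supp_eq]; exact hyU
      refine hs ?_
      rw [hf y (hPO hyP), QuotientGroup.eq_one_iff]
      refine ⟨((Scheme.mem_basicOpen V.X φ y hyP).1 hy).unit, Units.ext ?_⟩
      show algebraMap _ _ (V.X.presheaf.germ P y hyP φ) = _
      rw [Scheme.algebraMap_germ_eq_germToFunctionField]
      exact hφ
    have hne : Nonempty (V.X.basicOpen φ) := by
      refine ⟨⟨genericPoint V.X, ?_⟩⟩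
      have hgP : genericPoint V.X ∈ P :=
        ((genericPoint_spec V.X).mem_open_set_iff P.isOpen).2 (by simpa using ⟨x, hxP⟩)
      rw [Scheme.mem_basicOpen V.X φ _ hgP]
      exact (show IsUnit (V.X.germToFunctionField P φ) by rw [hφ]; exact f.isUnit)
    obtain ⟨ψ, hψ⟩ := exists_section (W := V.X.basicOpen φ) fun y hy => ha y (hsub y hy)
    haveI := hP.isLocalization_basicOpen φ
    obtain ⟨r, ⟨_, m, rfl⟩, e⟩ :=
      IsLocalization.exists_mk'_eq (Submonoid.powers φ) ψ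
    refine ⟨P, f, m, hxP, fun y hy => hf y (hPO hy), fun y hy => ?_⟩
    have hsp := IsLocalization.mk'_spec Γ(V.X, V.X.basicOpen φ) r
      (⟨φ ^ m, m, rfl⟩ : Submonoid.powers φ)
    rw [e] at hsp
    have hres : ∀ s : Γ(V.X, P), V.X.germToFunctionField (V.X.basicOpen φ)
        (algebraMap Γ(V.X, P) Γ(V.X, V.X.basicOpen φ) s) = V.X.germToFunctionField P s := fun s =>
      TopCat.Presheaf.germ_res_apply V.X.presheaf _ _ _ s
    have := congrArg (V.X.germToFunctionField (V.X.basicOpen φ)) hsp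
    rw [map_mul, hres, hres, hψ, map_pow, hφ] at this
    rw [this]
    exact germToFunctionField_mem_regAt hy r
  choose P f m hxP hf hm using key
  obtain ⟨t, ht⟩ := isCompact_univ.elim_finite_subcover (fun x => (P x : Set V.X))
    (fun x => (P x).isOpen) fun x _ => Set.mem_iUnion.2 ⟨x, hxP x⟩
  refine ⟨t.sup m, mem_Lspace_of_exists fun y => ?_⟩
  obtain ⟨x, hxt, hy⟩ := Set.mem_iUnion₂.1 (ht (Set.mem_univ y))
  refine ⟨f x ^ t.sup m, ?_, ?_⟩
  · show D.1 y ^ t.sup m = _
    rw [hf x y hy]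
    rfl
  · obtain ⟨k, hk⟩ := Nat.exists_eq_add_of_le (Finset.le_sup (f := m) hxt)
    obtain ⟨g, h1, h2⟩ := hD.eff y
    have hfy := mul_mem_regAt_congr (h1.symm.trans (hf x y hy)) (a := 1)
      (by rw [one_mul]; exact h2)
    rw [one_mul] at hfy
    rw [Units.val_pow_eq_pow_val, hk, pow_add, ← mul_assoc]
    exact mul_mem (hm x y hy) (pow_mem hfy k)

/-- Every function is a quotient of two functions regular on a nonempty affine open. -/
theorem exists_mul_mem_regAt {U : X.Opens} (hU : IsAffineOpen U) [Nonempty U] (a : X.functionField) :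
    ∃ s : X.functionField, s ≠ 0 ∧ (∀ x ∈ U, s ∈ regAt x) ∧ ∀ x ∈ U, s * a ∈ regAt x := by
  haveI := functionField_isFractionRing_of_isAffineOpen X U hU
  obtain ⟨p, q, hq, e⟩ := IsFractionRing.div_surjective (A := Γ(X, U)) a
  refine ⟨algebraMap Γ(X, U) X.functionField q, IsFractionRing.to_map_ne_zero_of_mem_nonZeroDivisors hq,
    fun x hx => germToFunctionField_mem_regAt hx q, fun x hx => ?_⟩
  rw [← e, mul_div_cancel₀ _ (IsFractionRing.to_map_ne_zero_of_mem_nonZeroDivisors hq)]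
  exact germToFunctionField_mem_regAt hx p

end FLTAgent.AbScheme
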