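import Fermat.Agent.AbScheme.Line
import Fermat.Agent.AbScheme.Boundary
import Fermat.Agent.AbScheme.Sections

/-!
From the theorem of the cube on the points to the pullback of a symmetric divisor along
multiplication by an integer.
-/

set_option autoImplicit false
set_option linter.unusedSectionVars false
set_option linter.style.haveILetI false

noncomputable section

universe u

namespace FLTAgent.AbScheme

open CategoryTheory CategoryTheory.Limits AlgebraicGeometry TopologicalSpace NeronModelInfra
  GoodReductionJacobian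

theorem fnMap_comp {X Y Z : Scheme.{u}} [IsIntegral X] [IsIntegral Y] [IsIntegral Z] (π : X ⟶ Y)
    (hπ : π (genericPoint X) = genericPoint Y) (ρ : Y ⟶ Z)
    (hρ : ρ (genericPoint Y) = genericPoint Z) (h : (π ≫ ρ) (genericPoint X) = genericPoint Z) :
    fnMap (π ≫ ρ) h = (fnMap π hπ).comp (fnMap ρ hρ) := by
  simp only [fnMap, ← CommRingCat.hom_comp]
  congr 1
  rw [Scheme.Hom.stalkMap_comp]
  simp only [Category.assoc]
  rw [← reassoc_of% (Scheme.Hom.stalkSpecializes_stalkMap ρ (π (genericPoint X)) (genericPoint Y)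
    (specializes_of_eq hπ)), TopCat.Presheaf.stalkSpecializes_comp_assoc]
  rfl

theorem fnMap_involutive {X : Scheme.{u}} [IsIntegral X] (π : X ⟶ X) (h : π ≫ π = 𝟙 X)
    (hπ : π (genericPoint X) = genericPoint X) (a : X.functionField) :
    fnMap π hπ (fnMap π hπ a) = a := by
  have h1 := RingHom.congr_fun (fnMap_comp π hπ π hπ (by rw [h]; rfl)) a
  rw [RingHom.comp_apply] at h1
  rw [← h1]
  have key : ∀ (ψ : X ⟶ X) (hψ : ψ = 𝟙 X) (hg : ψ (genericPoint X) = genericPoint X),
      fnMap ψ hg = RingHom.id _ := by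
    rintro _ rfl hg
    simp [fnMap]
  rw [key _ h]
  rfl

variable {K : Type u} [Field K] {A : Scheme.{u}} {f : A ⟶ Spec (CommRingCat.of K)}

/-- The theorem of the cube read on points. -/
def CubeRel (L : RelativeGroupLaw K f) : Prop :=
  ∀ (T : Scheme.{u}) (t : T ⟶ Spec (CommRingCat.of K)) (x y z : SchemeHomOver t f) (P : Pic A),
    Pic.map (L.mul t (L.mul t x y) z).1 P * Pic.map x.1 P * Pic.map y.1 P * Pic.map z.1 P =
      Pic.map (L.mul t x y).1 P * Pic.map (L.mul t x z).1 P * Pic.map (L.mul t y z).1 P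

/-- The inversion. -/
def negHom (L : RelativeGroupLaw K f) : A ⟶ A :=
  (L.inv f RelativeGroupLaw.idPoint).1

theorem negHom_over (L : RelativeGroupLaw K f) : negHom L ≫ f = f :=
  (L.inv f RelativeGroupLaw.idPoint).2

theorem negHom_comp_negHom (L : RelativeGroupLaw K f) : negHom L ≫ negHom L = 𝟙 A := by
  letI := L.pointGroup f
  let φ : SchemeHomOver f f →* SchemeHomOver f f :=
    MonoidHom.mk' (schemeHomOverComp (negHom L) (negHom_over L))
      (L.mul_natural f f (negHom L) (negHom_over L))
  have e : φ RelativeGroupLaw.idPoint = (RelativeGroupLaw.idPoint : SchemeHomOver f f)⁻¹ :=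
    Subtype.ext (Category.comp_id _)
  have h := map_inv φ (RelativeGroupLaw.idPoint : SchemeHomOver f f)
  rw [e, inv_inv] at h
  exact congrArg Subtype.val h

instance (L : RelativeGroupLaw K f) : IsIso (negHom L) :=
  ⟨negHom L, negHom_comp_negHom L, negHom_comp_negHom L⟩

theorem Pic.map_one_point (L : RelativeGroupLaw K f) {T : Scheme.{u}}
    (t : T ⟶ Spec (CommRingCat.of K)) (P : Pic A) : Pic.map (L.one t).1 P = 1 := by
  have h : (L.one t).1 = t ≫ (L.one (𝟙 (Spec (CommRingCat.of K)))).1 :=
    (congrArg Subtype.val (L.one_natural (𝟙 _) t t (Category.comp_id t))).symm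
  haveI : Subsingleton (Spec (CommRingCat.of K)) :=
    inferInstanceAs (Subsingleton (PrimeSpectrum K))
  rw [h, Pic.map_comp, Pic.eq_one_of_subsingleton (Pic.map _ P), map_one]

/-- The quadratic behaviour of symmetric bundles. -/
theorem Pic.map_nsmul {L : RelativeGroupLaw K f} (hcube : CubeRel L) {P : Pic A}
    (hP : Pic.map (negHom L) P = P) : ∀ n : ℕ, Pic.map (L.schemeNsmul n) P = P ^ (n ^ 2) := by
  letI := L.pointGroup f
  have hns : ∀ n, L.nsmul f n RelativeGroupLaw.idPoint =
      (RelativeGroupLaw.idPoint : SchemeHomOver f f) ^ n := by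
    intro n
    induction n with
    | zero => rw [pow_zero]; rfl
    | succ n ih =>
      rw [RelativeGroupLaw.nsmul_succ, ih, pow_succ]
      rfl
  have key : ∀ n, Pic.map (L.schemeNsmul n) P = P ^ (n ^ 2) ∧
      Pic.map (L.schemeNsmul (n + 1)) P = P ^ ((n + 1) ^ 2) := by
    intro n
    induction n with
    | zero =>
      refine ⟨?_, ?_⟩
      · rw [zero_pow two_ne_zero, pow_zero]
        exact Pic.map_one_point L f P
      · rw [zero_add, one_pow, pow_one]
        have e : L.schemeNsmul 1 = 𝟙 A := congrArg Subtype.val (L.nsmul_one_apply f _)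
        rw [e, Pic.map_id]
    | succ n ih =>
      refine ⟨ih.2, ?_⟩
      set x : SchemeHomOver f f := RelativeGroupLaw.idPoint with hx
      have hn : ∀ k, Pic.map (x ^ k).1 P = Pic.map (L.schemeNsmul k) P := fun k => by
        rw [← hns]; rfl
      have h := hcube A f (x ^ (n + 1)) x x⁻¹ P
      have e1 : L.mul f (L.mul f (x ^ (n + 1)) x) x⁻¹ = x ^ (n + 1) :=
        mul_inv_cancel_right _ _
      have e2 : L.mul f (x ^ (n + 1)) x = x ^ (n + 1 + 1) := (pow_succ _ _).symm
      have e3 : L.mul f (x ^ (n + 1)) x⁻¹ = x ^ n := by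
        show x ^ (n + 1) * x⁻¹ = x ^ n
        rw [pow_succ, mul_inv_cancel_right]
      have e4 : L.mul f x x⁻¹ = L.one f := mul_inv_cancel x
      rw [e1, e2, e3, e4, Pic.map_one_point L f P, mul_one, hn, hn, hn,
        show (x⁻¹ : SchemeHomOver f f).1 = negHom L from rfl, hP,
        show x.1 = 𝟙 A from rfl, Pic.map_id, ih.1, ih.2] at h
      refine mul_right_cancel (b := P ^ (n ^ 2)) (h.symm.trans ?_)
      simp only [← pow_succ, ← pow_add]
      congr 1
      ring
  exact fun n => (key n).1

/-- A surjection maps the generic point to the generic point. -/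
theorem genericPoint_map {X Y : Scheme.{u}} [IsIntegral X] [IsIntegral Y] (π : X ⟶ Y)
    [Surjective π] : π (genericPoint X) = genericPoint Y := by
  refine ((genericPoint_spec Y).eq ?_).symm
  show closure {π (genericPoint X)} = Set.univ
  refine Set.eq_univ_of_forall fun y => ?_
  obtain ⟨x, rfl⟩ := π.surjective y
  exact specializes_iff_mem_closure.1 ((genericPoint_specializes x).map π.continuous)

variable [IsIntegral A]

/-- The variety of the group. -/
abbrev varOf (f : A ⟶ Spec (CommRingCat.of K)) [IsProper f] [Smooth f] : Var K :=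
  ⟨A, f⟩

variable [IsAlgClosed K] [IsProper f] [Smooth f]

/-- An ample symmetric boundary divisor. -/
theorem exists_symmetric_isBoundary (L : RelativeGroupLaw K f) :
    ∃ (U : A.Opens) (D : CDiv A), D.IsBoundary U ∧
      CDiv.pull (negHom L) (genericPoint_map _) D = D := by
  have hπ := genericPoint_map (negHom L)
  obtain ⟨_, ⟨U, hU, rfl⟩, hxU, -⟩ := A.isBasis_affineOpens.exists_subset_of_mem_open
    (Set.mem_univ (genericPoint A)) isOpen_univ
  obtain ⟨D, hD⟩ := exists_isBoundary (varOf f) hU ⟨_, hxU⟩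
  haveI : A.IsSeparated := ⟨by rw [← terminal.comp_from f]; infer_instance⟩
  refine ⟨U ⊓ negHom L ⁻¹ᵁ U, D * CDiv.pull (negHom L) hπ D, ⟨?_, ?_, ?_, ?_⟩, ?_⟩
  · exact hD.eff.mul (hD.eff.pull _ hπ)
  · exact hU.inf (hU.preimage (negHom L))
  · refine ⟨genericPoint A, hxU, ?_⟩
    show negHom L (genericPoint A) ∈ U
    rw [hπ]
    exact hxU
  · rw [CDiv.supp_mul hD.eff (hD.eff.pull _ hπ), CDiv.supp_pull _ hπ hD.eff, hD.supp_eq]
    ext y
    simp [imp_iff_not_or]
  · have hinv : CDiv.pull (negHom L) hπ (CDiv.pull (negHom L) hπ D) = D := by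
      refine Subtype.ext (funext fun y => ?_)
      have hy : negHom L (negHom L y) = y := by
        rw [← Scheme.Hom.comp_apply, negHom_comp_negHom]; rfl
      obtain ⟨g, hg⟩ := QuotientGroup.mk_surjective (D.1 y)
      have h1 : (CDiv.pull (negHom L) hπ D).1 (negHom L y) =
          QuotientGroup.mk (Units.map (fnMap _ hπ).toMonoidHom g) := by
        refine pull_apply _ hπ D ?_
        obtain ⟨O, hyO, g', hg'⟩ := D.2 y
        rw [hg' y hyO] at hg
        rw [hg' _ (hy.symm ▸ hyO)]
        exact (QuotientGroup.eq.2 (by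
          have := QuotientGroup.eq.1 hg
          exact hy.symm ▸ this)).symm
      rw [pull_apply _ hπ _ h1, ← hg]
      congr 1
      refine Units.ext ?_
      show fnMap _ hπ (fnMap _ hπ (g : A.functionField)) = g
      exact fnMap_involutive (negHom L) (negHom_comp_negHom L) hπ g
    rw [map_mul, hinv]
    exact mul_comm (CDiv.pull (negHom L) hπ D) D

end FLTAgent.AbScheme
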