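import Mathlib

/-!
# Degree from the growth of spaces with bounded poles

Two pieces of algebra for the degree of multiplication by `n`: a finite separable extension of
degree `d` multiplies the dimensions of pole spaces by `d` up to a shift, and such bounds for all
iterates, together with growth of order `m ^ g`, determine `d`.
-/

set_option autoImplicit false

noncomputable section

namespace FLTAgent.AbScheme.Count

open Module

/-- If `x ^ k ≤ M * y ^ k` for all `k` then `x ≤ y`. -/
theorem le_of_forall_pow_le {x y M : ℕ} (h : ∀ k, x ^ k ≤ M * y ^ k) : x ≤ y := by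
  by_contra hxy
  push Not at hxy
  rcases Nat.eq_zero_or_pos y with rfl | hy
  · have := h 1
    simp at this
    omega
  have hb : ∀ k, y ^ k * (y + k) ≤ (y + 1) ^ k * y := by
    intro k
    induction k with
    | zero => simp
    | succ k ih =>
      have h1 : y ^ (k + 1) * (y + (k + 1)) ≤ y ^ k * (y + k) * (y + 1) := by
        have h3 : y * (y + (k + 1)) ≤ (y + k) * (y + 1) := by nlinarith
        calc y ^ (k + 1) * (y + (k + 1)) = y ^ k * (y * (y + (k + 1))) := by ring
          _ ≤ y ^ k * ((y + k) * (y + 1)) := Nat.mul_le_mul_left _ h3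
          _ = _ := by ring
      calc y ^ (k + 1) * (y + (k + 1)) ≤ y ^ k * (y + k) * (y + 1) := h1
        _ ≤ (y + 1) ^ k * y * (y + 1) := Nat.mul_le_mul_right _ ih
        _ = _ := by ring
  have h1 := hb (M * y)
  have h2 : (y + 1) ^ (M * y) ≤ M * y ^ (M * y) :=
    le_trans (Nat.pow_le_pow_left hxy _) (h _)
  have h3 : 0 < y ^ (M * y) := pow_pos hy _
  have h4 : y ^ (M * y) * (y + M * y) ≤ M * y ^ (M * y) * y :=
    h1.trans (Nat.mul_le_mul_right _ h2)
  nlinarith

/-- The degree is determined by the growth. -/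
theorem eq_pow_of_bounds {d n g : ℕ} (hn : 0 < n) (h : ℕ → ℕ)
    (hgrow : ∃ a b m₀ : ℕ, ∀ m, m₀ ≤ m → m ^ g ≤ a * h m ∧ h m ≤ b * m ^ g)
    (hbd : ∀ k, ∃ c, ∀ m, d ^ k * h m ≤ h ((n ^ k) ^ 2 * (m + c)) ∧
      h ((n ^ k) ^ 2 * m) ≤ d ^ k * h (m + c)) :
    d = n ^ (2 * g) := by
  obtain ⟨a, b, m₀, hg⟩ := hgrow
  have key : ∀ k, d ^ k ≤ a * b * 2 ^ g * (n ^ (2 * g)) ^ k ∧
      (n ^ (2 * g)) ^ k ≤ a * b * 2 ^ g * d ^ k := by
    intro k
    obtain ⟨c, hc⟩ := hbd k
    obtain ⟨m, hm0, hmc, hm1⟩ : ∃ m, m₀ ≤ m ∧ c ≤ m ∧ 1 ≤ m :=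
      ⟨m₀ + c + 1, by omega, by omega, by omega⟩
    have hN : 1 ≤ (n ^ k) ^ 2 := Nat.one_le_pow _ _ (pow_pos hn k)
    have hmN : ∀ t, m₀ ≤ t → m₀ ≤ (n ^ k) ^ 2 * t := fun t ht =>
      ht.trans (Nat.le_mul_of_pos_left t hN)
    have hpow : (n ^ (2 * g)) ^ k = ((n ^ k) ^ 2) ^ g := by
      rw [← pow_mul, ← pow_mul, ← pow_mul]
      ring_nf
    have hpos : 0 < m ^ g := pow_pos hm1 g
    have h2m : (m + c) ^ g ≤ 2 ^ g * m ^ g := by
      rw [← mul_pow]
      exact Nat.pow_le_pow_left (by omega) g
    obtain ⟨hlo, hhi⟩ := hc m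
    constructor
    · refine Nat.le_of_mul_le_mul_right ?_ hpos
      calc d ^ k * m ^ g ≤ d ^ k * (a * h m) := Nat.mul_le_mul_left _ (hg m hm0).1
        _ = a * (d ^ k * h m) := by ring
        _ ≤ a * h ((n ^ k) ^ 2 * (m + c)) := Nat.mul_le_mul_left _ hlo
        _ ≤ a * (b * ((n ^ k) ^ 2 * (m + c)) ^ g) :=
          Nat.mul_le_mul_left _ (hg _ (hmN _ (by omega))).2
        _ ≤ a * (b * (((n ^ k) ^ 2) ^ g * (2 ^ g * m ^ g))) := by
          rw [mul_pow ((n ^ k) ^ 2)]
          gcongr
        _ = a * b * 2 ^ g * (n ^ (2 * g)) ^ k * m ^ g := by rw [hpow]; ring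
    · refine Nat.le_of_mul_le_mul_right ?_ hpos
      calc (n ^ (2 * g)) ^ k * m ^ g = ((n ^ k) ^ 2 * m) ^ g := by rw [hpow, mul_pow]
        _ ≤ a * h ((n ^ k) ^ 2 * m) := (hg _ (hmN _ hm0)).1
        _ ≤ a * (d ^ k * h (m + c)) := Nat.mul_le_mul_left _ hhi
        _ ≤ a * (d ^ k * (b * (2 ^ g * m ^ g))) := by
          refine Nat.mul_le_mul_left _ (Nat.mul_le_mul_left _ ?_)
          exact (hg _ (by omega)).2.trans (Nat.mul_le_mul_left _ h2m)
        _ = a * b * 2 ^ g * d ^ k * m ^ g := by ring
  exact le_antisymm (le_of_forall_pow_le fun k => (key k).1) (le_of_forall_pow_le fun k => (key k).2)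

variable {K E F : Type*} [Field K] [Field E] [Field F] [Algebra K E] [Algebra K F] [Algebra E F]
  [IsScalarTower K E F] {ι : Type*}

/-- The elements of `E` with poles bounded by `m`. -/
def poleSpace (B : ι → Subalgebra K E) (s : ι → E) (m : ℕ) : Submodule K E where
  carrier := {f | ∀ i, f * s i ^ m ∈ B i}
  add_mem' hx hy i := by rw [add_mul]; exact add_mem (hx i) (hy i)
  zero_mem' i := by rw [zero_mul]; exact zero_mem _
  smul_mem' r x hx i := by rw [Algebra.smul_mul_assoc]; exact Subalgebra.smul_mem _ (hx i) r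

/-- The elements of `F` with poles bounded by `m`, after pulling the equations back. -/
def pullSpace (B : ι → Subalgebra K E) (s : ι → E) (m : ℕ) : Submodule K F where
  carrier := {f | ∀ i, IsIntegral (B i) (f * algebraMap E F (s i) ^ m)}
  add_mem' hx hy i := by rw [add_mul]; exact (hx i).add (hy i)
  zero_mem' i := by rw [zero_mul]; exact isIntegral_zero
  smul_mem' r x hx i := by
    rw [Algebra.smul_mul_assoc, Algebra.smul_def]
    refine IsIntegral.mul ?_ (hx i)
    rw [IsScalarTower.algebraMap_apply K (B i) F]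
    exact isIntegral_algebraMap

theorem mem_poleSpace {B : ι → Subalgebra K E} {s : ι → E} {m : ℕ} {f : E} :
    f ∈ poleSpace B s m ↔ ∀ i, f * s i ^ m ∈ B i := Iff.rfl

theorem mem_pullSpace {B : ι → Subalgebra K E} {s : ι → E} {m : ℕ} {f : F} :
    f ∈ pullSpace B s m ↔ ∀ i, IsIntegral (B i) (f * algebraMap E F (s i) ^ m) := Iff.rfl

/-- An element integral over `U` becomes integral over `B` after multiplication by a power of
`s`, if `U` lies in `B` with `s` inverted. -/
theorem exists_pow_isIntegral {B U : Subalgebra K E} {s : E} (hs : s ∈ B)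
    (hU : ∀ u ∈ U, ∃ k, u * s ^ k ∈ B) {x : F} (hx : IsIntegral U x) :
    ∃ k, ∀ j, k ≤ j → IsIntegral B (algebraMap E F s ^ j * x) := by
  obtain ⟨p, hp, hpx⟩ := hx
  choose e he using fun i : ℕ => hU (p.coeff i) (p.coeff i).2
  obtain ⟨k, hk⟩ : ∃ k, ∀ i ∈ p.support, e i ≤ k :=
    ⟨p.support.sup e, fun i hi => Finset.le_sup hi⟩
  refine ⟨k, fun j hj => ?_⟩
  have hq : (p.map (algebraMap U E)).Monic := hp.map _
  set q := (p.map (algebraMap U E)).scaleRoots (s ^ j) with hqdef
  have hqm : q.Monic := (Polynomial.monic_scaleRoots_iff _).2 hq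
  have hlift : q ∈ Polynomial.lifts (algebraMap B E) := by
    rw [Polynomial.lifts_iff_coeff_lifts]
    intro i
    refine ⟨⟨q.coeff i, ?_⟩, rfl⟩
    rw [hqdef, Polynomial.coeff_scaleRoots, Polynomial.coeff_map, hp.natDegree_map]
    rcases lt_trichotomy i p.natDegree with hi | hi | hi
    · by_cases hc : p.coeff i = 0
      · rw [hc, map_zero, zero_mul]
        exact zero_mem _
      · have hei : e i ≤ j := (hk i (Polynomial.mem_support_iff.2 hc)).trans hj
        obtain ⟨l, hl⟩ : ∃ l, j * (p.natDegree - i) = e i + l := by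
          refine Nat.exists_eq_add_of_le (hei.trans ?_)
          exact Nat.le_mul_of_pos_right j (by omega)
        rw [← pow_mul, hl, pow_add, ← mul_assoc]
        exact mul_mem (he i) (pow_mem hs l)
    · subst hi
      rw [hp.coeff_natDegree, map_one, one_mul]
      exact pow_mem (pow_mem hs j) _
    · rw [Polynomial.coeff_eq_zero_of_natDegree_lt hi, map_zero, zero_mul]
      exact zero_mem _
  obtain ⟨q', hq', -, hq'm⟩ := Polynomial.lifts_and_natDegree_eq_and_monic hlift hqm
  refine ⟨q', hq'm, ?_⟩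
  rw [IsScalarTower.algebraMap_eq B E F, ← Polynomial.eval₂_map, hq', ← map_pow]
  refine Polynomial.scaleRoots_eval₂_eq_zero _ ?_
  rw [Polynomial.eval₂_map, ← IsScalarTower.algebraMap_eq]
  exact hpx

/-- A finite separable extension multiplies the dimensions of pole spaces by its degree, up to
a shift. -/
theorem exists_degree_bounds [Finite ι] [FiniteDimensional E F] [Algebra.IsSeparable E F]
    (B : ι → Subalgebra K E) (s : ι → E) (hB : ∀ i (x : E), IsIntegral (B i) x → x ∈ B i)
    (hs : ∀ i, s i ∈ B i) (U : Subalgebra K E) [IsFractionRing U E]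
    (hU : ∀ i, ∀ u ∈ U, ∃ k, u * s i ^ k ∈ B i)
    (hfin : ∀ m, FiniteDimensional K (poleSpace B s m)) :
    ∃ c, ∀ m, FiniteDimensional K (pullSpace (F := F) B s m) ∧
      finrank E F * finrank K (poleSpace B s m) ≤ finrank K (pullSpace (F := F) B s (m + c)) ∧
      finrank K (pullSpace (F := F) B s m) ≤ finrank E F * finrank K (poleSpace B s (m + c)) := by
  classical
  set d := finrank E F with hd
  let b₀ : Basis (Fin d) E F := Module.finBasis E F
  obtain ⟨y, hy, hyb⟩ := exists_integral_multiples (A := U) (K := E) (Finset.univ.image b₀)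
  have hyE : algebraMap U E y ≠ 0 :=
    fun e => hy (IsFractionRing.injective U E (e.trans (map_zero _).symm))
  let b : Basis (Fin d) E F := b₀.unitsSMul fun _ => Units.mk0 _ hyE
  have hb : ∀ j, IsIntegral U (b j) := by
    intro j
    have hh : b j = y • b₀ j := by
      rw [Basis.unitsSMul_apply, Units.smul_def, Units.val_mk0, IsScalarTower.algebraMap_smul]
    rw [hh]
    exact hyb _ (Finset.mem_image_of_mem _ (Finset.mem_univ j))
  choose k hk using fun (i : ι) (j : Fin d) => exists_pow_isIntegral (hs i) (hU i) (hb j)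
  obtain ⟨c, hc⟩ : ∃ c, ∀ i j, k i j ≤ c := by
    haveI := Fintype.ofFinite ι
    exact ⟨Finset.univ.sup fun p : ι × Fin d => k p.1 p.2, fun i j =>
      Finset.le_sup (f := fun p : ι × Fin d => k p.1 p.2) (Finset.mem_univ (i, j))⟩
  have hbc : ∀ i j, IsIntegral (B i) (algebraMap E F (s i) ^ c * b j) := fun i j =>
    hk i j c (hc i j)
  refine ⟨c, fun m => ?_⟩
  -- the trace map
  have htr : ∀ (t : ℕ) (f : F), f ∈ pullSpace B s t → ∀ j,
      Algebra.trace E F (f * b j) ∈ poleSpace B s (t + c) := by
    intro t f hf j i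
    refine hB i _ ?_
    have h1 : IsIntegral (B i) (algebraMap E F (s i ^ (t + c)) * (f * b j)) := by
      have h2 := (hf i).mul (hbc i j)
      convert! h2 using 1
      rw [map_pow, pow_add]
      ring
    have h3 := Algebra.isIntegral_trace (L := E) h1
    rwa [← Algebra.smul_def, map_smul, smul_eq_mul, mul_comm] at h3
  let T : ∀ t, pullSpace (F := F) B s t →ₗ[K] (Fin d → poleSpace B s (t + c)) := fun t =>
    LinearMap.pi fun j => LinearMap.codRestrict _
      ((((Algebra.trace E F).comp (LinearMap.mulRight E (b j))).restrictScalars K).comp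
        (pullSpace B s t).subtype) fun f => htr t f.1 f.2 j
  have hT : ∀ t, Function.Injective (T t) := by
    intro t
    rw [injective_iff_map_eq_zero]
    intro f hf
    have h1 : ∀ j, Algebra.traceForm E F f.1 (b j) = 0 := fun j =>
      congrArg Subtype.val (congrFun hf j)
    have h2 : Algebra.traceForm E F f.1 = 0 := b.ext fun j => by simpa using h1 j
    exact Subtype.ext ((traceForm_nondegenerate E F).1 _ fun x => by rw [h2]; rfl)
  haveI := hfin
  haveI hfinp : ∀ t, FiniteDimensional K (pullSpace (F := F) B s t) := fun t =>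
    FiniteDimensional.of_injective (T t) (hT t)
  refine ⟨hfinp m, ?_, ?_⟩
  · have hmem : ∀ w : Fin d → poleSpace B s m,
        (∑ j, (w j).1 • b j) ∈ pullSpace (F := F) B s (m + c) := by
      intro w
      refine Submodule.sum_mem _ fun j _ i => ?_
      have h1 : IsIntegral (B i) (algebraMap E F ((w j).1 * s i ^ m)) := by
        have : ((w j).1 * s i ^ m) = algebraMap (B i) E ⟨_, (w j).2 i⟩ := rfl
        rw [this, ← IsScalarTower.algebraMap_apply]
        exact isIntegral_algebraMap
      have h2 := h1.mul (hbc i j)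
      convert! h2 using 1
      rw [Algebra.smul_def, map_mul, map_pow, pow_add]
      ring
    let S : (Fin d → poleSpace B s m) →ₗ[K] pullSpace (F := F) B s (m + c) :=
      LinearMap.codRestrict _
        (((Fintype.linearCombination E b).restrictScalars K).comp
          (LinearMap.pi fun j => (poleSpace B s m).subtype.comp (LinearMap.proj j)))
        fun w => hmem w
    have hS : Function.Injective S := by
      intro w w' hw
      have h1 : (∑ j, (w j).1 • b j) = ∑ j, (w' j).1 • b j := congrArg Subtype.val hw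
      funext j
      refine Subtype.ext ?_
      have h2 := congrArg (fun x => b.repr x j) h1
      simpa [Finsupp.single_apply] using h2
    have h := LinearMap.finrank_le_finrank_of_injective hS
    rwa [Module.finrank_pi_fintype, Finset.sum_const, Finset.card_univ, Fintype.card_fin,
      smul_eq_mul] at h
  · have h := LinearMap.finrank_le_finrank_of_injective (hT m)
    rwa [Module.finrank_pi_fintype, Finset.sum_const, Finset.card_univ, Fintype.card_fin,
      smul_eq_mul] at h

end FLTAgent.AbScheme.Count
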