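import Mathlib
import Fermat.Prelude.Def_GoodReductionJacobian_RelativeGroupLawKernel
import Fermat.Prelude.Def_JacJ1Iface

/-!
Varieties over a field, locally principal divisors read in the function field, and their spaces of
functions.
-/

set_option autoImplicit false
set_option linter.unusedSectionVars false

noncomputable section

universe u

namespace FLTAgent.AbScheme

open CategoryTheory AlgebraicGeometry TopologicalSpace Opposite

/-- A smooth proper integral scheme over a field. -/
structure Var (K : Type u) [Field K] : Type (u + 1) where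
  /-- The scheme. -/
  X : Scheme.{u}
  /-- The structure map. -/
  str : X ⟶ Spec (CommRingCat.of K)
  [isProper : IsProper str]
  [smooth : Smooth str]
  [isIntegral : IsIntegral X]

attribute [instance] Var.isProper Var.smooth Var.isIntegral

variable {K : Type u} [Field K]

/-- Constants as sections over an open set. -/
def Var.constHom (V : Var K) (U : V.X.Opens) : K →+* Γ(V.X, U) :=
  ((Scheme.ΓSpecIso (CommRingCat.of K)).inv ≫ V.str.appLE ⊤ U le_top).hom

/-- The function field. -/
abbrev Var.fn (V : Var K) : Type u := V.X.functionField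

/-- Constants in the function field. -/
def Var.constFn (V : Var K) : K →+* V.fn :=
  ((V.X.presheaf.germ ⊤ (genericPoint V.X) (Opens.mem_top _)).hom).comp (V.constHom ⊤)

instance Var.algebraFn (V : Var K) : Algebra K V.fn := V.constFn.toAlgebra

section Divisor

variable (X : Scheme.{u}) [IsIntegral X]

/-- The functions which are units at a point. -/
def unitsAt (x : X) : Subgroup (X.functionField)ˣ :=
  (Units.map (algebraMap (X.presheaf.stalk x) X.functionField).toMonoidHom).range

/-- Families of local equations. -/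
abbrev EqFamily : Type u := (x : X) → (X.functionField)ˣ ⧸ unitsAt X x

/-- The locally principal families. -/
def cartier : Subgroup (EqFamily X) where
  carrier := {φ | ∀ x : X, ∃ U : X.Opens, x ∈ U ∧
    ∃ f : (X.functionField)ˣ, ∀ y ∈ U, φ y = QuotientGroup.mk f}
  one_mem' x := ⟨⊤, trivial, 1, fun _ _ => rfl⟩
  mul_mem' {φ ψ} hφ hψ x := by
    obtain ⟨U, hU, f, hf⟩ := hφ x
    obtain ⟨V, hV, g, hg⟩ := hψ x
    exact ⟨U ⊓ V, ⟨hU, hV⟩, f * g, fun y hy => by
      show φ y * ψ y = _
      rw [hf y hy.1, hg y hy.2]
      rfl⟩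
  inv_mem' {φ} hφ x := by
    obtain ⟨U, hU, f, hf⟩ := hφ x
    exact ⟨U, hU, f⁻¹, fun y hy => by
      show (φ y)⁻¹ = _
      rw [hf y hy]
      rfl⟩

/-- Locally principal divisors, written multiplicatively. -/
abbrev CDiv : Type u := cartier X

variable {X}

/-- The divisor of a function. -/
def CDiv.principal : (X.functionField)ˣ →* CDiv X where
  toFun f := ⟨fun _ => QuotientGroup.mk f, fun _ => ⟨⊤, trivial, f, fun _ _ => rfl⟩⟩
  map_one' := rfl
  map_mul' _ _ := rfl

/-- Linear equivalence. -/
def CDiv.LinEq (D E : CDiv X) : Prop := ∃ f, D = E * CDiv.principal f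

/-- Effective divisors. -/
def CDiv.IsEff (D : CDiv X) : Prop :=
  ∀ x, ∃ f : (X.functionField)ˣ, D.1 x = QuotientGroup.mk f ∧
    (f : X.functionField) ∈ (algebraMap (X.presheaf.stalk x) X.functionField).range

/-- The support. -/
def CDiv.supp (D : CDiv X) : Set X := {x | D.1 x ≠ 1}

/-- `D` cuts out the complement of `U`. -/
structure CDiv.IsBoundary (D : CDiv X) (U : X.Opens) : Prop where
  eff : D.IsEff
  affine : IsAffineOpen U
  nonempty : (U : Set X).Nonempty
  supp_eq : D.supp = (U : Set X)ᶜ

end Divisor

section Sections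

variable {V : Var K}

theorem Var.constFn_mem_range (V : Var K) (x : V.X) (a : K) :
    algebraMap K V.fn a ∈ (algebraMap (V.X.presheaf.stalk x) V.fn).range := by
  refine ⟨V.X.presheaf.germ ⊤ x (Opens.mem_top _) (V.constHom ⊤ a), ?_⟩
  show _ = (V.X.presheaf.germ ⊤ (genericPoint V.X) (Opens.mem_top _)) (V.constHom ⊤ a)
  rw [RingHom.algebraMap_toAlgebra, ← ConcreteCategory.comp_apply,
    V.X.presheaf.germ_stalkSpecializes]

/-- The functions `a` with `div a + D ≥ 0`. -/
def Lspace (D : CDiv V.X) : Submodule K V.fn where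
  carrier := {a | ∀ x, ∀ f : V.fnˣ, D.1 x = QuotientGroup.mk f →
    a * f ∈ (algebraMap (V.X.presheaf.stalk x) V.fn).range}
  zero_mem' x f _ := by rw [zero_mul]; exact zero_mem _
  add_mem' {a b} ha hb x f hf := by
    rw [add_mul]; exact add_mem (ha x f hf) (hb x f hf)
  smul_mem' c a ha x f hf := by
    rw [Algebra.smul_def, mul_assoc]
    exact mul_mem (V.constFn_mem_range x c) (ha x f hf)

/-- The dimension of the space of a divisor. -/
def lDim (D : CDiv V.X) : ℕ := Module.finrank K (Lspace D)

end Sections

section Pullback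

variable {X Y : Scheme.{u}} [IsIntegral X] [IsIntegral Y] (π : X ⟶ Y)
  (hπ : π (genericPoint X) = genericPoint Y)

/-- The map of function fields of a dominant morphism. -/
def fnMap : Y.functionField →+* X.functionField :=
  (Y.presheaf.stalkSpecializes (specializes_of_eq hπ) ≫ π.stalkMap (genericPoint X)).hom

theorem fnMap_algebraMap (x : X) (r : Y.presheaf.stalk (π x)) :
    fnMap π hπ (algebraMap (Y.presheaf.stalk (π x)) Y.functionField r) =
      algebraMap (X.presheaf.stalk x) X.functionField (π.stalkMap x r) := by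
  rw [RingHom.algebraMap_toAlgebra, RingHom.algebraMap_toAlgebra, fnMap,
    ← ConcreteCategory.comp_apply, TopCat.Presheaf.stalkSpecializes_comp_assoc,
    ← ConcreteCategory.comp_apply]
  rw [Scheme.Hom.stalkSpecializes_stalkMap π (genericPoint X) x
    ((genericPoint_spec X).specializes trivial)]

/-- Pullback of local equations at a point. -/
def eqMapAt (x : X) :
    (Y.functionField)ˣ ⧸ unitsAt Y (π x) →* (X.functionField)ˣ ⧸ unitsAt X x :=
  QuotientGroup.map _ _ (Units.map (fnMap π hπ).toMonoidHom) <| by
    rintro _ ⟨r, rfl⟩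
    exact ⟨Units.map (π.stalkMap x).hom.toMonoidHom r,
      Units.ext (fnMap_algebraMap π hπ x r).symm⟩

/-- Pullback of divisors along a dominant morphism. -/
def CDiv.pull : CDiv Y →* CDiv X where
  toFun D := ⟨fun x => eqMapAt π hπ x (D.1 (π x)), fun x => by
    obtain ⟨U, hU, f, hf⟩ := D.2 (π x)
    exact ⟨π ⁻¹ᵁ U, hU, Units.map (fnMap π hπ).toMonoidHom f, fun y hy => by
      show eqMapAt π hπ y (D.1 (π y)) = _
      rw [hf (π y) hy]
      rfl⟩⟩
  map_one' := Subtype.ext (funext fun x => map_one (eqMapAt π hπ x))
  map_mul' D E := Subtype.ext (funext fun x => map_mul (eqMapAt π hπ x) (D.1 (π x)) (E.1 (π x)))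

end Pullback

end FLTAgent.AbScheme
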