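import Fermat.Agent.AbScheme.Sandwich

/-!
A finite flat dominant self map of constant rank `d` gives a basis of the function field over its
image with `d` elements.
-/

set_option autoImplicit false
set_option linter.unusedSectionVars false
set_option linter.style.haveILetI false

noncomputable section

universe u

namespace FLTAgent.AbScheme

open CategoryTheory CategoryTheory.Limits AlgebraicGeometry TopologicalSpace Opposite

/-- A basis along a ring map into a domain, from the rank of the rings of integers. -/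
theorem exists_fnBasis_of_rank {R S L : Type u} [CommRing R] [CommRing S] [Field L] [IsDomain R]
    [Algebra R S] [Module.Finite R S] [FaithfulSMul R S] [IsDomain S] [Algebra S L]
    [IsFractionRing S L] {L₀ : Type u} [Field L₀] [Algebra R L₀] [IsFractionRing R L₀]
    (j : L₀ →+* L) (hj : ∀ r, j (algebraMap R L₀ r) = algebraMap S L (algebraMap R S r))
    {d : ℕ} (hd : 0 < d) (hrank : Module.finrank R S = d) :
    ∃ w : Fin d → L, ∃ co : L → Fin d → L₀, (∀ a, ∑ i, j (co a i) * w i = a) ∧
      ∀ c : Fin d → L₀, ∑ i, j (c i) * w i = 0 → c = 0 := by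
  letI : Algebra L₀ L := j.toAlgebra
  letI : Algebra R L := ((algebraMap S L).comp (algebraMap R S)).toAlgebra
  haveI : IsScalarTower R S L := IsScalarTower.of_algebraMap_eq fun _ => rfl
  haveI : IsScalarTower R L₀ L := IsScalarTower.of_algebraMap_eq fun r => (hj r).symm
  have h : Module.finrank L₀ L = d :=
    (IsFractionRing.finrank_eq R L₀ S L).trans hrank
  haveI : FiniteDimensional L₀ L := Module.finite_of_finrank_pos (by omega)
  let b := Module.finBasisOfFinrankEq L₀ L h
  refine ⟨b, fun a => b.repr a, fun a => ?_, fun c hc => ?_⟩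
  · conv_rhs => rw [← b.sum_repr a]
    exact Finset.sum_congr rfl fun i _ => (Algebra.smul_def _ _).symm
  · funext i
    refine Fintype.linearIndependent_iff.1 b.linearIndependent c ?_ i
    rw [← hc]
    exact Finset.sum_congr rfl fun i _ => Algebra.smul_def _ _

variable {K : Type u} [Field K] {V : Var K} (π : V.X ⟶ V.X)
  (hπ : π (genericPoint V.X) = genericPoint V.X)

/-- The rank of a finite flat map on an affine open piece. -/
theorem finrank_appLE_eq [IsFinite π] [Flat π] {U : V.X.Opens} (hU : IsAffineOpen U)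
    [Nonempty U] (x : Spec Γ(V.X, U)) :
    (π.app U).hom.finrank x = π.finrank (hU.fromSpec x) := by
  have hU' : IsAffineOpen (π ⁻¹ᵁ U) := hU.preimage π
  have hp : IsPullback hU'.fromSpec (Spec.map (π.app U)) π hU.fromSpec := by
    refine (IsOpenImmersion.isPullback _ _ _ _ ?_ ?_).flip
    · rw [Scheme.Hom.app_eq_appLE, IsAffineOpen.SpecMap_appLE_fromSpec]
    · rw [hU.opensRange_fromSpec, hU'.opensRange_fromSpec]
  rw [← Scheme.Hom.finrank_of_isPullback _ _ _ _ hp,
    Scheme.Hom.finrank_SpecMap_eq_finrank (π.finite_app U hU) (by rw [Scheme.Hom.app_eq_appLE]; exact Flat.flat_appLE π hU hU' le_rfl)]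

/-- A finite flat dominant map of constant rank has a basis of that size. -/
theorem exists_fnBasis [IsFinite π] [Flat π] {d : ℕ} (hd : ∀ y, π.finrank y = d) (hpos : 0 < d) :
    Nonempty (FnBasis π hπ d) := by
  obtain ⟨_, ⟨U, hU, rfl⟩, hxU, -⟩ := V.X.isBasis_affineOpens.exists_subset_of_mem_open
    (Set.mem_univ (genericPoint V.X)) isOpen_univ
  haveI : Nonempty U := ⟨⟨_, hxU⟩⟩
  have hxU' : genericPoint V.X ∈ π ⁻¹ᵁ U := by
    show π (genericPoint V.X) ∈ U
    rw [hπ]
    exact hxU
  haveI : Nonempty (π ⁻¹ᵁ U : V.X.Opens) := ⟨⟨_, hxU'⟩⟩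
  have hU' : IsAffineOpen (π ⁻¹ᵁ U) := hU.preimage π
  have hflat : (π.app U).hom.Flat := by
    rw [Scheme.Hom.app_eq_appLE]
    exact Flat.flat_appLE π hU hU' le_rfl
  have hfin := π.finite_app U hU
  haveI := functionField_isFractionRing_of_isAffineOpen V.X U hU
  haveI := functionField_isFractionRing_of_isAffineOpen V.X _ hU'
  have hcomp : ∀ r : Γ(V.X, U), fnMap π hπ (V.X.germToFunctionField U r) =
      V.X.germToFunctionField (π ⁻¹ᵁ U) ((π.app U).hom r) := fun r => fnMap_germ π hπ r
  algebraize [(π.app U).hom]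
  haveI : FaithfulSMul Γ(V.X, U) Γ(V.X, π ⁻¹ᵁ U) := by
    rw [faithfulSMul_iff_algebraMap_injective]
    intro a b hab
    exact germ_injective_of_isIntegral V.X (U := U) (genericPoint V.X) hxU
      ((fnMap π hπ).injective (((hcomp a).trans (congrArg _ hab)).trans (hcomp b).symm))
  have hrank : Module.finrank Γ(V.X, U) Γ(V.X, π ⁻¹ᵁ U) = d := by
    let p : Spec Γ(V.X, U) := hU.primeIdealOf ⟨_, hxU⟩
    have h1 := finrank_appLE_eq π hU p
    rw [hd] at h1
    rw [← Ideal.finrank_fiber_eq_finrank (R := Γ(V.X, U)) p.asIdeal,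
      Ideal.finrank_fiber_eq_rankAtStalk, ← h1]
    exact (congrFun RingHom.finrank_algebraMap p).symm
  obtain ⟨w, co, h1, h2⟩ := exists_fnBasis_of_rank (S := Γ(V.X, π ⁻¹ᵁ U)) (L := V.fn) (L₀ := V.fn)
    (fnMap π hπ) hcomp hpos hrank
  exact ⟨⟨w, co, h1, h2⟩⟩

end FLTAgent.AbScheme
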