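import Fermat.Agent.AbScheme.Group.Torsion

/-!
Multiplication by an invertible integer on an abelian scheme over an algebraically closed field.
-/

set_option autoImplicit false
set_option linter.unusedSectionVars false

noncomputable section

universe u

namespace FLTAgent.AbScheme

open CategoryTheory CategoryTheory.Limits AlgebraicGeometry NeronModelInfra GoodReductionJacobian

variable {K : Type u} [Field K] [IsAlgClosed K] {A : Scheme.{u}}
  (f : A ⟶ Spec (CommRingCat.of K)) (L : RelativeGroupLaw K f)

/-- The whole space is connected. -/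
theorem connectedSpace_of_bundle (hA : AbelianSchemePropertyBundle K f) : ConnectedSpace A := by
  have h := hA.connectedFibres (basePt K)
  rw [connectedSpace_iff_univ]
  convert h using 1
  exact (Set.eq_univ_of_forall fun a => Subsingleton.elim _ _).symm

/-- A smooth proper connected group scheme is integral. -/
theorem isIntegral_of_groupLaw (L : RelativeGroupLaw K f) [IsProper f] [Smooth f] [ConnectedSpace A] :
    IsIntegral A := by
  have := irreducibleSpace_of_groupLaw L
  have := isReduced_of_smooth f
  exact isIntegral_of_irreducibleSpace_of_isReduced A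

/-- A product of integral smooth proper schemes is integral. -/
theorem isIntegral_prod {X Y : Scheme.{u}} (a : X ⟶ Spec (CommRingCat.of K))
    (b : Y ⟶ Spec (CommRingCat.of K)) [IsProper a] [Smooth a] [IsIntegral X] [IsProper b] [Smooth b]
    [IsIntegral Y] : IsIntegral (pullback a b) := by
  have := irreducibleSpace_prod a b
  have := isReduced_of_smooth (pullback.fst a b ≫ a)
  exact isIntegral_of_irreducibleSpace_of_isReduced _

variable [IsProper f] [Smooth f] [IsIntegral A]

theorem isFinite_schemeNsmul (hc : L.IsCommutative) {n : ℕ} (hn : (n : K) ≠ 0) :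
    IsFinite (L.schemeNsmul n) :=
  isFinite_of_invertible hc hn

theorem etale_schemeNsmul (hc : L.IsCommutative) {n : ℕ} (hn : (n : K) ≠ 0) :
    Etale (L.schemeNsmul n) :=
  etale_of_invertible hc hn

theorem surjective_schemeNsmul (hc : L.IsCommutative) {n : ℕ} (hn : (n : K) ≠ 0) :
    Surjective (L.schemeNsmul n) :=
  surjective_of_invertible hc hn

/-- The number of torsion points is the degree. -/
theorem finrank_schemeNsmul (hc : L.IsCommutative) {n : ℕ} (hn : (n : K) ≠ 0) (y : A) :
    (L.schemeNsmul n).finrank y =
      Nat.card {x : SchemeHomOver (𝟙 (Spec (CommRingCat.of K))) f //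
        L.IsTorsionPoint (𝟙 (Spec (CommRingCat.of K))) n x} :=
  finrank_of_invertible hc hn y

/-- The number of torsion points is multiplicative in powers. -/
theorem natCard_torsion_pow (hc : L.IsCommutative) {n : ℕ} (hn : (n : K) ≠ 0) (k : ℕ) :
    Nat.card {x : SchemeHomOver (𝟙 (Spec (CommRingCat.of K))) f //
        L.IsTorsionPoint (𝟙 (Spec (CommRingCat.of K))) (n ^ k) x} =
      Nat.card {x : SchemeHomOver (𝟙 (Spec (CommRingCat.of K))) f //
        L.IsTorsionPoint (𝟙 (Spec (CommRingCat.of K))) n x} ^ k :=
  card_pow_of_invertible hc hn k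

theorem natCard_torsion_pos (hc : L.IsCommutative) {n : ℕ} (hn : (n : K) ≠ 0) :
    0 < Nat.card {x : SchemeHomOver (𝟙 (Spec (CommRingCat.of K))) f //
        L.IsTorsionPoint (𝟙 (Spec (CommRingCat.of K))) n x} :=
  one_le_card_of_invertible hc hn

end FLTAgent.AbScheme
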