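import Mathlib

/-!
Line bundles on a scheme as cocycles of units indexed by the points.
-/

set_option autoImplicit false
set_option linter.unusedSectionVars false

noncomputable section

universe u

namespace FLTAgent.AbScheme

open CategoryTheory AlgebraicGeometry TopologicalSpace Opposite

variable {X T : Scheme.{u}}

/-- Restriction of sections. -/
def res {U V : X.Opens} (h : V ≤ U) : Γ(X, U) →+* Γ(X, V) :=
  (X.presheaf.map (homOfLE h).op).hom

theorem res_res {U V W : X.Opens} (h : V ≤ U) (h' : W ≤ V) (a : Γ(X, U)) :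
    res h' (res h a) = res (h'.trans h) a := by
  simp only [res, ← ConcreteCategory.comp_apply, ← Functor.map_comp]
  rfl

theorem res_self {U : X.Opens} (a : Γ(X, U)) : res (le_refl U) a = a := by
  show X.presheaf.map (𝟙 (op U)) a = a
  simp

/-- A cocycle of units on a neighbourhood of every point. -/
structure LB (X : Scheme.{u}) : Type u where
  /-- The neighbourhood of a point. -/
  U : X → X.Opens
  mem : ∀ x, x ∈ U x
  /-- The transition functions. -/
  g : ∀ x y, Γ(X, U x ⊓ U y)
  self : ∀ x, g x x = 1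
  cocycle : ∀ x y z (W : X.Opens) (h₁ : W ≤ U x ⊓ U y) (h₂ : W ≤ U y ⊓ U z) (h₃ : W ≤ U x ⊓ U z),
    res h₁ (g x y) * res h₂ (g y z) = res h₃ (g x z)

namespace LB

/-- The trivial cocycle. -/
protected def one (X : Scheme.{u}) : LB X where
  U _ := ⊤
  mem _ := trivial
  g _ _ := 1
  self _ := rfl
  cocycle _ _ _ _ _ _ _ := by simp

/-- The product of two cocycles. -/
protected def mul (L M : LB X) : LB X where
  U x := L.U x ⊓ M.U x
  mem x := ⟨L.mem x, M.mem x⟩
  g x y := res (inf_le_inf inf_le_left inf_le_left) (L.g x y) *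
    res (inf_le_inf inf_le_right inf_le_right) (M.g x y)
  self x := by simp [L.self, M.self]
  cocycle x y z W h₁ h₂ h₃ := by
    simp only [map_mul, res_res]
    rw [mul_mul_mul_comm, L.cocycle x y z, M.cocycle x y z]

/-- The inverse cocycle. -/
protected def inv (L : LB X) : LB X where
  U := L.U
  mem := L.mem
  g x y := res (le_inf inf_le_right inf_le_left) (L.g y x)
  self x := by simp [L.self]
  cocycle x y z W h₁ h₂ h₃ := by
    simp only [res_res]
    rw [mul_comm, L.cocycle z y x]

/-- The pullback of a cocycle. -/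
def pull (φ : T ⟶ X) (L : LB X) : LB T where
  U t := φ ⁻¹ᵁ L.U (φ t)
  mem t := L.mem _
  g t s := (φ.app (L.U (φ t) ⊓ L.U (φ s))).hom (L.g (φ t) (φ s))
  self t := by rw [L.self, map_one]; rfl
  cocycle t s r W h₁ h₂ h₃ := by
    have key : ∀ {A B : X.Opens} (e : B ≤ A) (h : W ≤ φ ⁻¹ᵁ A) (h' : W ≤ φ ⁻¹ᵁ B) (a : Γ(X, A)),
        res h ((φ.app A).hom a) = res h' ((φ.app B).hom (res e a)) := by
      intro A B e h h' a
      simp only [res, ← ConcreteCategory.comp_apply]
      rw [Scheme.Hom.naturality, Category.assoc, ← Functor.map_comp]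
      rfl
    let B := L.U (φ t) ⊓ L.U (φ s) ⊓ L.U (φ r)
    have hB : W ≤ φ ⁻¹ᵁ B := fun w hw => ⟨h₁ hw, (h₂ hw).2⟩
    have e₁ : B ≤ L.U (φ t) ⊓ L.U (φ s) := inf_le_left
    have e₂ : B ≤ L.U (φ s) ⊓ L.U (φ r) := le_inf (inf_le_left.trans inf_le_right) inf_le_right
    have e₃ : B ≤ L.U (φ t) ⊓ L.U (φ r) := le_inf (inf_le_left.trans inf_le_left) inf_le_right
    refine (congrArg₂ (· * ·) (key e₁ h₁ hB _) (key e₂ h₂ hB _)).trans ?_
    refine Eq.trans ?_ (key e₃ h₃ hB _).symm
    rw [← map_mul, ← map_mul, L.cocycle]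

/-- A section. -/
@[ext]
structure Sec (L : LB X) : Type u where
  /-- The local functions. -/
  s : ∀ x, Γ(X, L.U x)
  rel : ∀ x y, res inf_le_left (s x) = L.g x y * res inf_le_right (s y)

/-- A section which is everywhere a unit exists. -/
def IsTrivial (L : LB X) : Prop := ∃ s : Sec L, ∀ x, IsUnit (s.s x)

/-- Isomorphism of cocycles. -/
def Iso (L M : LB X) : Prop := (L.mul M.inv).IsTrivial

/-- A function is the pairing of two sections. -/
def Sec.Pairs {L : LB X} (s : Sec L) (t : Sec L.inv) (c : Γ(X, ⊤)) : Prop :=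
  ∀ x, res le_top c = s.s x * (show Γ(X, L.U x) from t.s x)

end LB

end FLTAgent.AbScheme
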