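import Fermat.Agent.AbScheme.Defs
import Fermat.Agent.AbScheme.LineDefs
import Fermat.Agent.AbScheme.Line.Div

/-!
The group of line bundles, its functoriality, the bundle of a divisor, frames on affine schemes and
gluing of trivialisations.
-/

set_option autoImplicit false

noncomputable section

universe u

namespace FLTAgent.AbScheme

open CategoryTheory AlgebraicGeometry TopologicalSpace

variable {X Y Z : Scheme.{u}}

instance LB.setoid (X : Scheme.{u}) : Setoid (LB X) :=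
  ⟨LB.Iso, LB.iso_refl, LB.Iso.symm, LB.Iso.trans⟩

/-- Line bundles up to isomorphism. -/
def Pic (X : Scheme.{u}) : Type u := Quotient (LB.setoid X)

/-- The class of a cocycle. -/
def Pic.mk (L : LB X) : Pic X := Quotient.mk (LB.setoid X) L

theorem Pic.mk_eq_mk_iff {L M : LB X} : Pic.mk L = Pic.mk M ↔ L.Iso M := Quotient.eq

instance (X : Scheme.{u}) : CommGroup (Pic X) where
  mul := Quotient.map₂ LB.mul fun _ _ h _ _ h' => h.mul h'
  one := Pic.mk (LB.one X)
  inv := Quotient.map LB.inv fun _ _ h => h.inv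
  mul_assoc := by
    rintro ⟨L⟩ ⟨M⟩ ⟨N⟩
    exact Quotient.sound (LB.mul_iso_assoc L M N)
  one_mul := by
    rintro ⟨L⟩
    exact Quotient.sound (LB.one_mul_iso L)
  mul_one := by
    rintro ⟨L⟩
    exact Quotient.sound ((LB.mul_iso_comm L _).trans (LB.one_mul_iso L))
  inv_mul_cancel := by
    rintro ⟨L⟩
    exact Quotient.sound (LB.inv_mul_iso L)
  mul_comm := by
    rintro ⟨L⟩ ⟨M⟩
    exact Quotient.sound (LB.mul_iso_comm L M)

theorem Pic.mk_surjective : Function.Surjective (Pic.mk : LB X → Pic X) := Quotient.mk_surjective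
theorem Pic.mk_mul (L M : LB X) : Pic.mk (L.mul M) = Pic.mk L * Pic.mk M := rfl
theorem Pic.mk_inv (L : LB X) : Pic.mk L.inv = (Pic.mk L)⁻¹ := rfl
theorem Pic.mk_eq_one_iff {L : LB X} : Pic.mk L = 1 ↔ L.IsTrivial :=
  Pic.mk_eq_mk_iff.trans LB.iso_one_iff

/-- Pullback. -/
def Pic.map (φ : X ⟶ Y) : Pic Y →* Pic X :=
  MonoidHom.mk' (Quotient.map (LB.pull φ) fun _ _ h => h.pull φ) <| by
    rintro ⟨L⟩ ⟨M⟩
    exact Quotient.sound (LB.pull_mul_iso φ L M)

theorem Pic.map_mk (φ : X ⟶ Y) (L : LB Y) : Pic.map φ (Pic.mk L) = Pic.mk (L.pull φ) := rfl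

theorem Pic.map_comp (φ : X ⟶ Y) (ψ : Y ⟶ Z) (L : Pic Z) :
    Pic.map (φ ≫ ψ) L = Pic.map φ (Pic.map ψ L) := by
  obtain ⟨L, rfl⟩ := Pic.mk_surjective L
  exact Quotient.sound (LB.pull_pull_iso φ ψ L)

theorem Pic.map_id (L : Pic X) : Pic.map (𝟙 X) L = L := by
  obtain ⟨L, rfl⟩ := Pic.mk_surjective L
  exact Quotient.sound (LB.pull_id_iso L)

/-- Line bundles on the spectrum of a field are trivial. -/
theorem Pic.eq_one_of_subsingleton [Subsingleton X] (L : Pic X) : L = 1 := by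
  obtain ⟨L, rfl⟩ := Pic.mk_surjective L
  exact Pic.mk_eq_one_iff.2 (LB.isTrivial_of_subsingleton L)

/-- The pullback of a section. -/
def LB.Sec.pull (φ : X ⟶ Y) {L : LB Y} (s : L.Sec) : (L.pull φ).Sec := s.pullback φ

theorem LB.Sec.pull_s (φ : X ⟶ Y) {L : LB Y} (s : L.Sec) (x : X) :
    (s.pull φ).s x = (φ.app (L.U (φ x))).hom (s.s (φ x)) := rfl

/-- The pairing of a section and a section of the inverse exists and is unique. -/
theorem LB.Sec.existsUnique_pairs {L : LB X} (s : L.Sec) (t : L.inv.Sec) :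
    ∃! c : Γ(X, ⊤), s.Pairs t c := s.exists_pairs t

/-- Frames on an affine scheme. -/
theorem LB.exists_frame [IsAffine X] (L : LB X) :
    ∃ (N : ℕ) (σ : Fin N → L.Sec) (τ : Fin N → L.inv.Sec) (c : Fin N → Γ(X, ⊤)),
      (∀ k, (σ k).Pairs (τ k) (c k)) ∧ ∑ k, c k = 1 := LB.exists_frame_aux L

/-- A unit trivialisation given on the pieces of a cover. -/
theorem LB.isTrivial_of_cover {L : LB X} {ι : Type u} (W : ι → X.Opens) (hW : ⨆ i, W i = ⊤)
    (s : ∀ i x, Γ(X, W i ⊓ L.U x)) (hu : ∀ i x, IsUnit (s i x))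
    (hrel : ∀ i x y (O : X.Opens) (h₁ : O ≤ W i ⊓ L.U x) (h₂ : O ≤ W i ⊓ L.U y)
      (h₃ : O ≤ L.U x ⊓ L.U y), res h₁ (s i x) = res h₃ (L.g x y) * res h₂ (s i y))
    (hagree : ∀ i j x (O : X.Opens) (h₁ : O ≤ W i ⊓ L.U x) (h₂ : O ≤ W j ⊓ L.U x),
      res h₁ (s i x) = res h₂ (s j x)) : L.IsTrivial :=
  LB.isTrivial_of_cover_aux W hW s hu hrel hagree

section Divisor

variable [IsIntegral X] [IsIntegral Y]

/-- The bundle of a divisor. -/
def Pic.ofDiv : CDiv X →* Pic X :=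
  MonoidHom.mk' (fun D => Pic.mk (exists_isBundle D).choose) fun D E =>
    Quotient.sound ((exists_isBundle (D * E)).choose_spec.choose_spec.iso
      ((exists_isBundle D).choose_spec.choose_spec.mul
        (exists_isBundle E).choose_spec.choose_spec))

theorem Pic.ofDiv_eq_mk {D : CDiv X} {L : LB X} {f : X → (X.functionField)ˣ}
    (h : IsBundle D L f) : Pic.ofDiv D = Pic.mk L :=
  Quotient.sound ((exists_isBundle D).choose_spec.choose_spec.iso h)

theorem Pic.ofDiv_eq_one_iff {D : CDiv X} :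
    Pic.ofDiv D = 1 ↔ ∃ f, D = CDiv.principal f := by
  obtain ⟨L, f, h⟩ := exists_isBundle D
  rw [Pic.ofDiv_eq_mk h, Pic.mk_eq_one_iff, h.isTrivial_iff]

theorem Pic.map_ofDiv (π : X ⟶ Y) (hπ : π (genericPoint X) = genericPoint Y) (D : CDiv Y) :
    Pic.map π (Pic.ofDiv D) = Pic.ofDiv (CDiv.pull π hπ D) := by
  obtain ⟨L, f, h⟩ := exists_isBundle D
  rw [Pic.ofDiv_eq_mk h, Pic.map_mk, Pic.ofDiv_eq_mk (h.pull π hπ)]

end Divisor

end FLTAgent.AbScheme
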