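import Mathlib

/-!
# Factoriality of rings of formal power series, and faithfully flat descent of factoriality

* `MvPowerSeries (Fin n) K` is factorial for an infinite field `K` (Weierstrass preparation
  after a linear change of coordinates and induction on `n`).
* A noetherian local domain with a faithfully flat local factorial extension is factorial.
-/

noncomputable section

namespace FLTAgent.AbScheme

open IsLocalRing

section Descent

/-- Factoriality descends along a faithfully flat map to a factorial local domain. -/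
theorem ufd_of_faithfullyFlat (R S : Type*) [CommRing R] [IsDomain R] [IsNoetherianRing R]
    [CommRing S] [IsDomain S] [UniqueFactorizationMonoid S] [IsLocalRing S]
    [Algebra R S] [Module.FaithfullyFlat R S] : UniqueFactorizationMonoid R := by
  refine { irreducible_iff_prime := ?_ }
  intro p
  refine ⟨fun hp => ⟨hp.ne_zero, hp.not_isUnit, fun a b hab => ?_⟩, Prime.irreducible⟩
  by_contra hcon
  obtain ⟨hpa, hpb⟩ := not_or.1 hcon
  -- the colon ideal `(p) : a`
  let I : Ideal R := Submodule.comap (LinearMap.mulRight R a) (Ideal.span {p})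
  have hI : ∀ x, x ∈ I ↔ p ∣ x * a := fun x => by
    simp [I, Ideal.mem_span_singleton]
  set φ := algebraMap R S
  have hφ : Function.Injective φ := FaithfulSMul.algebraMap_injective R S
  have hp0 : φ p ≠ 0 := (map_ne_zero_iff φ hφ).2 hp.ne_zero
  have ha0 : a ≠ 0 := by rintro rfl; exact hpa (dvd_zero _)
  obtain ⟨p', a', c, hrel, hcp, hca⟩ :=
    UniqueFactorizationMonoid.exists_reduced_factors (φ p) hp0 (φ a)
  have hc0 : c ≠ 0 := by rintro rfl; exact hp0 (by rw [← hcp, zero_mul])
  have hIS : ∀ x : S, φ p ∣ x * φ a ↔ p' ∣ x := fun x => by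
    rw [← hcp, ← hca, mul_left_comm, mul_dvd_mul_iff_left hc0]
    exact ⟨hrel.dvd_of_dvd_mul_right, fun h => Dvd.dvd.mul_right h _⟩
  have hmem : p' ∈ I.map φ := by
    obtain ⟨y, hy⟩ := (hIS p').2 dvd_rfl
    have hrelz : ∑ i : Fin 2, (![a, -p] i) • (![p', y] i) = (0 : S) := by
      simp [Fin.sum_univ_two, Algebra.smul_def]
      linear_combination hy
    obtain ⟨k, C, z, hz, hC⟩ := Module.Flat.isTrivialRelation_of_sum_smul_eq_zero (R := R)
      (M := S) (f := ![a, -p]) (x := ![p', y]) hrelz
    have hp' : p' = ∑ j, C 0 j • z j := by simpa using hz 0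
    rw [hp']
    refine Ideal.sum_mem _ fun j _ => ?_
    rw [Algebra.smul_def]
    refine Ideal.mul_mem_right _ _ (Ideal.mem_map_of_mem _ ((hI _).2 ⟨C 1 j, ?_⟩))
    have := hC j
    simp [Fin.sum_univ_two] at this
    linear_combination this
  have hle : I.map φ ≤ Ideal.span {p'} := Ideal.map_le_iff_le_comap.2 fun x hx => by
    rw [Ideal.mem_comap, Ideal.mem_span_singleton, ← hIS, ← map_mul]
    exact map_dvd φ ((hI x).1 hx)
  -- by locality the extended ideal is generated by an element of `I`
  obtain ⟨d, hd, hdu⟩ : ∃ d ∈ I, Ideal.span {p'} = Ideal.span {φ d} := by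
    by_contra hnone
    push Not at hnone
    have hp'0 : p' ≠ 0 := by rintro rfl; exact hp0 (by rw [← hcp, mul_zero])
    have hsub : I.map φ ≤ Ideal.span {p'} * maximalIdeal S := Ideal.map_le_iff_le_comap.2
      fun x hx => by
        obtain ⟨s, hs⟩ := Ideal.mem_span_singleton.1 (hle (Ideal.mem_map_of_mem _ hx))
        rw [Ideal.mem_comap, hs]
        refine Ideal.mul_mem_mul (Ideal.mem_span_singleton_self _) ?_
        by_contra hu
        have hu' : IsUnit s := by simpa [mem_maximalIdeal] using hu
        exact hnone x hx (by rw [hs, Ideal.span_singleton_mul_right_unit hu'])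
    obtain ⟨s, hs, hs'⟩ := Ideal.mem_span_singleton_mul.1 (hsub hmem)
    have : s = 1 := mul_left_cancel₀ hp'0 (by rw [hs', mul_one])
    exact (maximalIdeal S).ne_top_iff_one.1 (maximalIdeal.isMaximal S).ne_top (this ▸ hs)
  have hIeq : I = Ideal.span {d} := by
    refine le_antisymm (fun x hx => ?_) ((Ideal.span_singleton_le_iff_mem _).2 hd)
    rw [← Ideal.comap_map_eq_self_of_faithfullyFlat (B := S) (Ideal.span {d})]
    rw [Ideal.mem_comap, Ideal.map_span, Set.image_singleton, ← hdu]
    exact hle (Ideal.mem_map_of_mem _ hx)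
  have hdvd : ∀ x, x ∈ I → d ∣ x := fun x hx => Ideal.mem_span_singleton.1 (hIeq ▸ hx)
  obtain ⟨e, he⟩ := hdvd p ((hI p).2 (dvd_mul_right p a))
  rcases hp.isUnit_or_isUnit he with hdunit | heunit
  · exact hpa (hdunit.dvd_mul_left.1 ((hI d).1 hd))
  · refine hpb ?_
    have hb := hdvd b ((hI b).2 (by rwa [mul_comm]))
    rw [he]
    exact (heunit.mul_right_dvd).2 hb

end Descent

section PowerSeriesRing

variable (K : Type*) [Field K]

theorem mem_span_range_X {n : ℕ} {f : MvPowerSeries (Fin n) K}
    (hf : MvPowerSeries.constantCoeff f = 0) :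
    f ∈ Ideal.span (Set.range (MvPowerSeries.X : Fin n → MvPowerSeries (Fin n) K)) := by
  classical
  let g : Fin n → MvPowerSeries (Fin n) K := fun i e =>
    if ∀ j < i, e j = 0 then MvPowerSeries.coeff (e + Finsupp.single i 1) f else 0
  suffices f = ∑ i, MvPowerSeries.X i * g i by
    rw [this]
    exact Ideal.sum_mem _ fun i _ =>
      Ideal.mul_mem_right _ _ (Ideal.subset_span ⟨i, rfl⟩)
  ext e
  rw [map_sum]
  simp only [MvPowerSeries.X_def, MvPowerSeries.coeff_monomial_mul, one_mul]
  by_cases he : e = 0
  · subst he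
    rw [MvPowerSeries.coeff_zero_eq_constantCoeff_apply, hf, Finset.sum_eq_zero]
    intro i _
    rw [if_neg]
    intro hle
    simpa using hle i
  have hne : (Finset.univ.filter fun i => e i ≠ 0).Nonempty := by
    by_contra hh
    refine he (Finsupp.ext fun i => ?_)
    by_contra h
    exact hh ⟨i, by simpa using h⟩
  set m := (Finset.univ.filter fun i => e i ≠ 0).min' hne
  have hm : e m ≠ 0 := (Finset.mem_filter.1 ((Finset.univ.filter fun i => e i ≠ 0).min'_mem hne)).2
  have hmin : ∀ j < m, e j = 0 := fun j hj => by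
    by_contra h
    exact absurd (Finset.min'_le _ j (by simp [h])) (not_le.2 hj)
  have hle : Finsupp.single m 1 ≤ e := by
    rw [Finsupp.single_le_iff]; omega
  rw [Finset.sum_eq_single m]
  · rw [if_pos hle]
    show _ = g m (e - Finsupp.single m 1)
    simp only [g]
    rw [if_pos, tsub_add_cancel_of_le hle]
    intro j hj
    simp [hmin j hj]
  · intro i _ hi
    split
    next hlei =>
      show g i (e - Finsupp.single i 1) = 0
      simp only [g]
      rw [if_neg]
      intro hall
      rw [Finsupp.single_le_iff] at hlei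
      rcases lt_or_gt_of_ne hi with h | h
      · have := hmin i h; omega
      · have := hall m h
        simp [ne_of_lt h] at this
        exact hm this
    next => rfl
  · simp

theorem maximalIdeal_mvPowerSeries_eq {n : ℕ} :
    maximalIdeal (MvPowerSeries (Fin n) K)
      = Ideal.span (Set.range (MvPowerSeries.X : Fin n → MvPowerSeries (Fin n) K)) := by
  refine le_antisymm (fun f hf => mem_span_range_X K ?_) (Ideal.span_le.2 ?_)
  · by_contra h
    exact hf (MvPowerSeries.isUnit_iff_constantCoeff.2 (Ne.isUnit h))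
  · rintro _ ⟨i, rfl⟩ hu
    simpa using MvPowerSeries.isUnit_iff_constantCoeff.1 hu

instance isAdicComplete_mvPowerSeries (n : ℕ) :
    IsAdicComplete (maximalIdeal (MvPowerSeries (Fin n) K)) (MvPowerSeries (Fin n) K) := by
  rw [maximalIdeal_mvPowerSeries_eq]
  infer_instance

variable [Infinite K]

/-- After a linear change of coordinates a nonzero series becomes regular in `X 0`. -/
theorem exists_regular {n : ℕ} {f : MvPowerSeries (Fin (n + 1)) K} (hf : f ≠ 0) :
    ∃ L : MvPowerSeries (Fin (n + 1)) K ≃* MvPowerSeries (Fin (n + 1)) K, ∃ d : ℕ,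
      MvPowerSeries.coeff (Finsupp.single 0 d) (L f) ≠ 0 := by
  classical
  obtain ⟨e₀, he₀, -⟩ := MvPowerSeries.exists_coeff_ne_zero_and_order
    (MvPowerSeries.ne_zero_iff_order_finite.1 hf)
  set d := Finsupp.degree e₀ with hd
  set T : Finset (Fin (n + 1) →₀ ℕ) := Finset.finsuppAntidiag Finset.univ d with hT
  have hTmem : ∀ e : Fin (n + 1) →₀ ℕ, e ∈ T ↔ Finsupp.degree e = d := fun e => by
    simp [hT, Finset.mem_finsuppAntidiag, Finsupp.degree_eq_sum]
  let P : MvPolynomial (Fin (n + 1)) K :=
    MvPolynomial.X 0 * ∑ e ∈ T, MvPolynomial.monomial e (MvPowerSeries.coeff e f)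
  have hP : P ≠ 0 := by
    refine mul_ne_zero (MvPolynomial.X_ne_zero _) fun h => he₀ ?_
    have := congrArg (MvPolynomial.coeff e₀) h
    simpa [MvPolynomial.coeff_sum, MvPolynomial.coeff_monomial, (hTmem e₀).2 hd.symm] using this
  obtain ⟨v, hv⟩ : ∃ v, MvPolynomial.eval v P ≠ 0 := by
    by_contra h
    push Not at h
    exact hP (MvPolynomial.funext fun x => by rw [h x, map_zero])
  have hev : (∑ e ∈ T, MvPowerSeries.coeff e f * ∏ i, v i ^ e i) ≠ 0 := by
    intro h
    apply hv
    simp [P, MvPolynomial.eval_monomial, Finsupp.prod_fintype, h]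
  have hv0 : v 0 ≠ 0 := fun h => hv (by simp [P, h])
  let a : Fin (n + 1) → MvPowerSeries (Fin (n + 1)) K := fun i =>
    if i = 0 then MvPowerSeries.C (v 0) * MvPowerSeries.X 0
    else MvPowerSeries.X i + MvPowerSeries.C (v i) * MvPowerSeries.X 0
  let b : Fin (n + 1) → MvPowerSeries (Fin (n + 1)) K := fun i =>
    if i = 0 then MvPowerSeries.C (v 0)⁻¹ * MvPowerSeries.X 0
    else MvPowerSeries.X i - MvPowerSeries.C (v i * (v 0)⁻¹) * MvPowerSeries.X 0
  have ha : MvPowerSeries.HasSubst a := MvPowerSeries.hasSubst_of_constantCoeff_zero fun i => by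
    simp only [a]; split <;> simp
  have hb : MvPowerSeries.HasSubst b := MvPowerSeries.hasSubst_of_constantCoeff_zero fun i => by
    simp only [b]; split <;> simp
  have hab : (fun i => MvPowerSeries.subst b (a i)) = MvPowerSeries.X := by
    funext i
    by_cases hi : i = 0
    · subst hi
      simp [a, MvPowerSeries.subst_mul hb, MvPowerSeries.subst_X hb, b, ← mul_assoc,
        ← map_mul, mul_inv_cancel₀ hv0]
    · simp [a, hi, MvPowerSeries.subst_add hb, MvPowerSeries.subst_mul hb,
        MvPowerSeries.subst_X hb, b, ← mul_assoc, ← map_mul]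
  have hba : (fun i => MvPowerSeries.subst a (b i)) = MvPowerSeries.X := by
    funext i
    by_cases hi : i = 0
    · subst hi
      simp [b, MvPowerSeries.subst_mul ha, MvPowerSeries.subst_X ha, a, ← mul_assoc,
        ← map_mul, inv_mul_cancel₀ hv0]
    · simp [b, hi, MvPowerSeries.subst_sub ha, MvPowerSeries.subst_mul ha,
        MvPowerSeries.subst_X ha, a, ← mul_assoc, ← map_mul]
      rw [mul_assoc, inv_mul_cancel₀ hv0, mul_one, add_sub_cancel_right]
  refine ⟨{
    toFun := MvPowerSeries.subst a
    invFun := MvPowerSeries.subst b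
    left_inv := fun x => by
      rw [MvPowerSeries.subst_comp_subst_apply ha hb, hab, MvPowerSeries.subst_self, id]
    right_inv := fun x => by
      rw [MvPowerSeries.subst_comp_subst_apply hb ha, hba, MvPowerSeries.subst_self, id]
    map_mul' := MvPowerSeries.subst_mul ha }, d, ?_⟩
  show MvPowerSeries.coeff (Finsupp.single 0 d) (MvPowerSeries.subst a f) ≠ 0
  let c : Fin (n + 1) → MvPowerSeries Unit K := fun i =>
    if i = 0 then MvPowerSeries.X () else 0
  have hc : MvPowerSeries.HasSubst c := MvPowerSeries.hasSubst_of_constantCoeff_zero fun i => by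
    simp only [c]; split <;> simp
  have key : MvPowerSeries.coeff (Finsupp.single () d)
      (MvPowerSeries.subst c (MvPowerSeries.subst a f))
      = MvPowerSeries.coeff (Finsupp.single 0 d) (MvPowerSeries.subst a f) := by
    rw [MvPowerSeries.coeff_subst hc, finsum_eq_single _ (Finsupp.single (0 : Fin (n + 1)) d)]
    · simp [Finsupp.prod_single_index, c, MvPowerSeries.coeff_X_pow]
    · intro e he
      by_cases h0 : ∀ i, i ≠ 0 → e i = 0
      · have : e = Finsupp.single 0 (e 0) := by
          ext i
          by_cases hi : i = 0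
          · simp [hi]
          · simp [hi, h0 i hi]
        have hd' : e 0 ≠ d := fun h => he (by rw [this, h])
        rw [this]
        simp [Finsupp.prod_single_index, c, MvPowerSeries.coeff_X_pow, Ne.symm hd']
      · push Not at h0
        obtain ⟨i, hi, hei⟩ := h0
        rw [Finsupp.prod, Finset.prod_eq_zero (Finsupp.mem_support_iff.2 hei)]
        · simp
        · simp [c, hi, hei]
  rw [← key, MvPowerSeries.subst_comp_subst_apply ha hc]
  have hw : (fun i => MvPowerSeries.subst c (a i))
      = fun i => MvPowerSeries.C (v i) * MvPowerSeries.X () := by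
    funext i
    by_cases hi : i = 0
    · subst hi
      simp [a, MvPowerSeries.subst_mul hc, MvPowerSeries.subst_X hc, c]
    · simp [a, hi, MvPowerSeries.subst_add hc, MvPowerSeries.subst_mul hc,
        MvPowerSeries.subst_X hc, c]
  rw [hw]
  have hs : MvPowerSeries.HasSubst
      fun i : Fin (n + 1) => MvPowerSeries.C (v i) * MvPowerSeries.X () :=
    MvPowerSeries.hasSubst_of_constantCoeff_zero fun i => by simp
  rw [MvPowerSeries.coeff_subst hs, finsum_eq_sum_of_support_subset (s := T)]
  · refine fun h => hev (Eq.trans (Finset.sum_congr rfl fun e he => ?_) h)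
    rw [hTmem, Finsupp.degree_eq_sum] at he
    simp [Finsupp.prod_fintype, mul_pow, Finset.prod_mul_distrib, ← map_pow, ← map_prod,
      Finset.prod_pow_eq_pow_sum, he, MvPowerSeries.coeff_C_mul, MvPowerSeries.coeff_X_pow]
  · intro e he
    by_contra h
    rw [Finset.mem_coe, hTmem, Finsupp.degree_eq_sum] at h
    apply he
    simp [Finsupp.prod_fintype, mul_pow, Finset.prod_mul_distrib, ← map_pow, ← map_prod,
      Finset.prod_pow_eq_pow_sum, MvPowerSeries.coeff_C_mul, MvPowerSeries.coeff_X_pow, Ne.symm h]

/-- An irreducible series whose reduction is nonzero is prime, over a complete factorial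
local coefficient ring. -/
theorem prime_of_irreducible_of_map_ne_zero {A : Type*} [CommRing A] [IsDomain A]
    [UniqueFactorizationMonoid A] [IsLocalRing A] [IsAdicComplete (maximalIdeal A) A]
    {g : PowerSeries A} (hg : Irreducible g) (hres : g.map (residue A) ≠ 0) : Prime g := by
  obtain ⟨P, h, H⟩ := PowerSeries.exists_isWeierstrassFactorization hres
  have hmonic : P.Monic := H.isDistinguishedAt.monic
  have hunit : ∀ u : Polynomial A, u ∣ P → IsUnit (u : PowerSeries A) → IsUnit u := by
    rintro u ⟨w, hw⟩ hu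
    have hlead : IsUnit u.leadingCoeff := IsUnit.of_mul_eq_one w.leadingCoeff (by
      rw [← Polynomial.leadingCoeff_mul, ← hw]; exact hmonic)
    have hdeg : (u.map (residue A)).natDegree = u.natDegree :=
      Polynomial.natDegree_map_eq_of_isUnit_leadingCoeff _ hlead
    have hpow : u.map (residue A) ∣ Polynomial.X ^ P.natDegree := by
      have hP : P.map (residue A) = Polynomial.X ^ P.natDegree :=
        H.isDistinguishedAt.map_eq_X_pow
      exact ⟨w.map (residue A), by rw [← Polynomial.map_mul, ← hw, hP]⟩
    obtain ⟨i, -, hi⟩ := (dvd_prime_pow Polynomial.prime_X _).1 hpow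
    have hc0 : IsUnit (u.coeff 0) := by simpa using PowerSeries.isUnit_iff_constantCoeff.1 hu
    have hi0 : i = 0 := by
      by_contra hne
      obtain ⟨t, ht⟩ := hi.symm
      have := congrArg (fun q : Polynomial (ResidueField A) => q.coeff 0) ht
      simp [Polynomial.mul_coeff_zero, Ne.symm hne] at this
      exact (residue_ne_zero_iff_isUnit _).2 hc0 this.symm
    rw [hi0, pow_zero, associated_one_iff_isUnit, Polynomial.isUnit_iff] at hi
    obtain ⟨r, -, hr⟩ := hi
    have : u.natDegree = 0 := by rw [← hdeg, ← hr, Polynomial.natDegree_C]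
    rw [Polynomial.eq_C_of_natDegree_eq_zero this]
    exact Polynomial.isUnit_C.2 hc0
  have hirr : Irreducible P := by
    refine ⟨fun hP => hg.not_isUnit ?_, fun u w huw => ?_⟩
    · rw [H.eq_mul]
      exact (hP.map Polynomial.coeToPowerSeries.ringHom).mul H.isUnit
    · have : g = (u : PowerSeries A) * ((w : PowerSeries A) * h) := by
        rw [H.eq_mul, huw, Polynomial.coe_mul, mul_assoc]
      rcases hg.isUnit_or_isUnit this with hu | hw
      · exact Or.inl (hunit u ⟨w, huw⟩ hu)
      · exact Or.inr (hunit w ⟨u, by rw [huw, mul_comm]⟩ (isUnit_of_mul_isUnit_left hw))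
  have hprime : Prime P := hirr.prime
  have : (Ideal.span {P}).IsPrime := (Ideal.span_singleton_prime hirr.ne_zero).2 hprime
  have : IsDomain (PowerSeries A ⧸ Ideal.span {g}) :=
    H.algEquivQuotient.symm.toMulEquiv.isDomain _
  exact (Ideal.span_singleton_prime hg.ne_zero).1 ((Ideal.Quotient.isDomain_iff_prime _).1 ‹_›)

/-- Rings of formal power series in finitely many variables over an infinite field are
factorial. -/
theorem ufd_mvPowerSeries : ∀ n : ℕ, UniqueFactorizationMonoid (MvPowerSeries (Fin n) K)
  | 0 => (MvPowerSeries.isEmptyEquiv (σ := Fin 0) (R := K)).symm.toMulEquiv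
      |>.uniqueFactorizationMonoid inferInstance
  | n + 1 => by
    have := ufd_mvPowerSeries n
    have : IsDomain (MvPowerSeries (Fin n) K) := NoZeroDivisors.to_isDomain _
    have : IsDomain (MvPowerSeries (Fin (n + 1)) K) := NoZeroDivisors.to_isDomain _
    refine { irreducible_iff_prime := ?_ }
    intro f
    refine ⟨fun hf => ?_, Prime.irreducible⟩
    obtain ⟨L, d, hd⟩ := exists_regular K hf.ne_zero
    set E := L.trans (MvPowerSeries.finSuccEquiv K n).toMulEquiv
    rw [← MulEquiv.prime_iff E]
    refine prime_of_irreducible_of_map_ne_zero ((MulEquiv.irreducible_iff E).2 hf) fun h => hd ?_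
    have hd' : residue (MvPowerSeries (Fin n) K) (PowerSeries.coeff d (E f)) = 0 := by
      rw [← PowerSeries.coeff_map, h, map_zero]
    rw [residue_eq_zero_iff, mem_maximalIdeal, mem_nonunits_iff,
      MvPowerSeries.isUnit_iff_constantCoeff, isUnit_iff_ne_zero, not_not,
      ← MvPowerSeries.coeff_zero_eq_constantCoeff_apply] at hd'
    have e : E f = MvPowerSeries.finSuccEquiv K n (L f) := rfl
    rwa [e, MvPowerSeries.coeff_coeff_finSuccEquiv, show Finsupp.cons d (0 : Fin n →₀ ℕ)
      = Finsupp.single 0 d from ?_] at hd'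
    ext i
    refine Fin.cases ?_ (fun j => ?_) i <;> simp

end PowerSeriesRing

end FLTAgent.AbScheme
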