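import Fermat.Agent.AbScheme.Sections

/-!
Pullback along a finite dominant self map: the spaces of multiples of a divisor compared with those
of the pulled back divisor.
-/

set_option autoImplicit false
set_option linter.unusedSectionVars false
set_option linter.style.haveILetI false

noncomputable section

universe u

namespace FLTAgent.AbScheme

open CategoryTheory AlgebraicGeometry TopologicalSpace Opposite

variable {K : Type u} [Field K] {V : Var K} (π : V.X ⟶ V.X)
  (hπ : π (genericPoint V.X) = genericPoint V.X)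

theorem fnMap_germ {P : V.X.Opens} [Nonempty P] [Nonempty (π ⁻¹ᵁ P : V.X.Opens)] (r : Γ(V.X, P)) :
    fnMap π hπ (V.X.germToFunctionField P r) =
      V.X.germToFunctionField (π ⁻¹ᵁ P) ((π.app P).hom r) := by
  obtain ⟨x, hx⟩ := (inferInstance : Nonempty (π ⁻¹ᵁ P : V.X.Opens))
  have hx' : π x ∈ P := hx
  rw [← Scheme.algebraMap_germ_eq_germToFunctionField (X := V.X) hx',
    ← Scheme.algebraMap_germ_eq_germToFunctionField (X := V.X) hx, fnMap_algebraMap π hπ x]
  exact congrArg _ (Scheme.Hom.germ_stalkMap_apply π P x hx r)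

theorem fnMap_algebraMap_const (hover : π ≫ V.str = V.str) (k : K) :
    fnMap π hπ (algebraMap K V.fn k) = algebraMap K V.fn k := by
  haveI : Nonempty (⊤ : V.X.Opens) := ⟨⟨genericPoint V.X, trivial⟩⟩
  haveI : Nonempty (π ⁻¹ᵁ (⊤ : V.X.Opens) : V.X.Opens) := ⟨⟨genericPoint V.X, trivial⟩⟩
  show fnMap π hπ (V.X.germToFunctionField ⊤ (V.constHom ⊤ k)) = _
  rw [fnMap_germ π hπ]
  show _ = V.X.germToFunctionField ⊤ (V.constHom ⊤ k)
  refine congrArg (fun r => V.X.germToFunctionField ⊤ r) ?_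
  show ((Scheme.ΓSpecIso (CommRingCat.of K)).inv ≫ V.str.appLE ⊤ ⊤ le_top ≫ π.app ⊤) k =
    ((Scheme.ΓSpecIso (CommRingCat.of K)).inv ≫ V.str.appLE ⊤ ⊤ le_top) k
  congr 2
  have e : V.str.appLE ⊤ ⊤ le_top ≫ π.appLE ⊤ ⊤ le_top = V.str.appLE ⊤ ⊤ le_top :=
    (Scheme.Hom.appLE_comp_appLE π V.str ⊤ ⊤ ⊤ le_top le_top).trans (by simp only [hover])
  simpa [Scheme.Hom.app_eq_appLE] using e

/-- Twisting by a principal divisor. -/
theorem mem_Lspace_mul_principal {E : CDiv V.X} {v : V.fnˣ} {a : V.fn} :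
    a ∈ Lspace (E * CDiv.principal v) ↔ a * v ∈ Lspace E := by
  constructor <;> intro h x f hf
  · have := h x (f * v) (by show E.1 x * QuotientGroup.mk v = _; rw [hf]; rfl)
    rwa [Units.val_mul, mul_comm (f : V.fn), ← mul_assoc] at this
  · have hE : E.1 x = QuotientGroup.mk (f * v⁻¹) := by
      have hx : E.1 x * QuotientGroup.mk v = QuotientGroup.mk f := hf
      rw [QuotientGroup.mk_mul, ← hx, QuotientGroup.mk_inv, mul_inv_cancel_right]
    have := h x _ hE
    rwa [Units.val_mul, mul_assoc, mul_comm (f : V.fn), ← mul_assoc (v : V.fn),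
      Units.mul_inv, one_mul] at this

theorem lDim_mul_principal (E : CDiv V.X) (v : V.fnˣ) :
    lDim (E * CDiv.principal v) = lDim E := by
  let f : Lspace (E * CDiv.principal v) →ₗ[K] Lspace E :=
    { toFun := fun a => ⟨(a : V.fn) * v, mem_Lspace_mul_principal.1 a.2⟩
      map_add' := fun a b => Subtype.ext (add_mul _ _ _)
      map_smul' := fun c a => Subtype.ext (smul_mul_assoc _ _ _) }
  refine (LinearEquiv.ofBijective f ⟨fun a b h => ?_, fun b => ?_⟩).finrank_eq
  · exact Subtype.ext (v.mul_left_inj.1 (congrArg Subtype.val h))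
  · refine ⟨⟨(b : V.fn) * ((v⁻¹ : V.fnˣ) : V.fn), mem_Lspace_mul_principal.2 ?_⟩,
      Subtype.ext ?_⟩
    · simp
    · show (b : V.fn) * ((v⁻¹ : V.fnˣ) : V.fn) * v = b
      simp

/-- Coordinates of the function field over its image. -/
structure FnBasis (d : ℕ) : Type u where
  /-- The basis. -/
  w : Fin d → V.fn
  /-- The coordinates. -/
  coord : V.fn → Fin d → V.fn
  sum_eq : ∀ a, ∑ i, fnMap π hπ (coord a i) * w i = a
  indep : ∀ c : Fin d → V.fn, ∑ i, fnMap π hπ (c i) * w i = 0 → c = 0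

namespace FnBasis

variable {π hπ} {d : ℕ} (b : FnBasis π hπ d)

theorem coord_eq {a : V.fn} {c : Fin d → V.fn} (h : ∑ i, fnMap π hπ (c i) * b.w i = a) :
    b.coord a = c := by
  refine sub_eq_zero.1 (b.indep _ ?_)
  simp only [Pi.sub_apply, map_sub, sub_mul, Finset.sum_sub_distrib, b.sum_eq, h, sub_self]

theorem coord_add (a a' : V.fn) : b.coord (a + a') = b.coord a + b.coord a' :=
  b.coord_eq (by simp only [Pi.add_apply, map_add, add_mul, Finset.sum_add_distrib, b.sum_eq])

theorem coord_mul (r a : V.fn) : b.coord (fnMap π hπ r * a) = fun i => r * b.coord a i :=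
  b.coord_eq (by simp only [map_mul, mul_assoc, ← Finset.mul_sum, b.sum_eq])

theorem coord_injective : Function.Injective b.coord := fun a a' h => by
  rw [← b.sum_eq a, h, b.sum_eq]

theorem coord_zero : b.coord 0 = 0 :=
  b.coord_eq (by simp)

theorem coord_sum {ι : Type*} (s : Finset ι) (f : ι → V.fn) :
    b.coord (∑ j ∈ s, f j) = ∑ j ∈ s, b.coord (f j) :=
  map_sum (AddMonoidHom.mk' b.coord b.coord_add) f s

end FnBasis

variable {π hπ} {U : V.X.Opens} {D : CDiv V.X} {q d : ℕ} {v : V.fnˣ}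
  (hD : D.IsBoundary U) (hover : π ≫ V.str = V.str) (hq : CDiv.pull π hπ D = D ^ q * CDiv.principal v)
  (b : FnBasis π hπ d) (hfin : ∀ m, FiniteDimensional K (Lspace (D ^ m)))

include hq in
theorem pull_pow_eq (m : ℕ) : CDiv.pull π hπ (D ^ m) = D ^ (q * m) * CDiv.principal (v ^ m) := by
  rw [map_pow, hq, pow_mul, map_pow]
  exact mul_pow (D ^ q) (CDiv.principal v) m

theorem fnMap_mem_Lspace_pull {E : CDiv V.X} {a : V.fn} (ha : a ∈ Lspace E) :
    fnMap π hπ a ∈ Lspace (CDiv.pull π hπ E) := by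
  refine mem_Lspace_of_exists fun x => ?_
  obtain ⟨f, hf⟩ := QuotientGroup.mk_surjective (E.1 (π x))
  refine ⟨_, pull_apply π hπ E hf.symm, ?_⟩
  show fnMap π hπ a * fnMap π hπ (f : V.fn) ∈ regAt x
  rw [← map_mul]
  exact fnMap_mem_regAt π hπ (ha (π x) f hf.symm)

include hD hover hq hfin in
/-- The lower comparison. -/
theorem exists_mul_lDim_le [IsFinite π] (b : FnBasis π hπ d) :
    ∃ c, ∀ m, d * lDim (D ^ m) ≤ lDim (D ^ (q * (m + c))) := by
  classical
  set U' := π ⁻¹ᵁ U with hU'def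
  have hsurj : ∀ x, x ∈ U' ↔ π x ∈ U := fun x => Iff.rfl
  haveI : Nonempty (U' : V.X.Opens) := by
    refine ⟨⟨genericPoint V.X, ?_⟩⟩
    show π (genericPoint V.X) ∈ U
    rw [hπ]
    exact ((genericPoint_spec V.X).mem_open_set_iff U.isOpen).2 (by simpa using hD.nonempty)
  have hU' : IsAffineOpen U' := hD.affine.preimage π
  have hD' : (CDiv.pull π hπ D).IsBoundary U' :=
    ⟨hD.eff.pull π hπ, hU', ⟨_, (Classical.arbitrary (U' : V.X.Opens)).2⟩,
      by rw [CDiv.supp_pull π hπ hD.eff, hD.supp_eq]; rfl⟩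
  choose s hs0 hs hsw using fun i => exists_mul_mem_regAt hU' (b.w i)
  have hw : ∀ i, ∀ x ∈ U', (∏ j, s j) * b.w i ∈ regAt x := fun i x hx => by
    rw [← Finset.mul_prod_erase Finset.univ s (Finset.mem_univ i), mul_right_comm]
    exact mul_mem (hsw i x hx) (prod_mem fun j _ => hs j x hx)
  choose c hc using fun i => exists_mem_Lspace_pow hD' (hw i)
  refine ⟨Finset.univ.sup c, fun m => ?_⟩
  set C := Finset.univ.sup c
  set S := ∏ j, s j
  have hS : S ≠ 0 := Finset.prod_ne_zero_iff.2 fun j _ => hs0 j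
  have hmem : ∀ (a : Fin d → Lspace (D ^ m)) i,
      fnMap π hπ (a i) * (S * b.w i) ∈ Lspace (CDiv.pull π hπ (D ^ (m + C))) := fun a i => by
    rw [pow_add, map_mul, map_pow _ D C]
    exact mul_mem_Lspace (fnMap_mem_Lspace_pull (a i).2)
      (Lspace_pow_mono (hD.eff.pull π hπ) (Finset.le_sup (Finset.mem_univ i)) (hc i))
  let T : (Fin d → Lspace (D ^ m)) →ₗ[K] Lspace (CDiv.pull π hπ (D ^ (m + C))) :=
    { toFun := fun a => ⟨∑ i, fnMap π hπ (a i) * (S * b.w i),
        Submodule.sum_mem _ fun i _ => hmem a i⟩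
      map_add' := fun a a' => Subtype.ext (by
        simp only [Pi.add_apply, Submodule.coe_add, map_add, add_mul, Finset.sum_add_distrib])
      map_smul' := fun k a => Subtype.ext (by
        simp only [Pi.smul_apply, SetLike.val_smul, Algebra.smul_def, map_mul,
          fnMap_algebraMap_const π hπ hover, RingHom.id_apply, mul_assoc, ← Finset.mul_sum]) }
  have hT : Function.Injective T := by
    refine (injective_iff_map_eq_zero T).2 fun a ha => ?_
    have h0 : ∑ i, fnMap π hπ (a i) * (S * b.w i) = 0 := congrArg Subtype.val ha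
    have h1 : S * ∑ i, fnMap π hπ (a i) * b.w i = 0 := by
      rw [← h0, Finset.mul_sum]
      exact Finset.sum_congr rfl fun i _ => by ring
    have h2 := b.indep (fun i => (a i : V.fn)) ((mul_eq_zero.1 h1).resolve_left hS)
    exact funext fun i => Subtype.ext (congrFun h2 i)
  haveI : ∀ m, FiniteDimensional K (Lspace (D ^ m)) := hfin
  haveI : FiniteDimensional K (Lspace (CDiv.pull π hπ (D ^ (m + C)))) := by
    rw [pull_pow_eq hq]
    let f : Lspace (D ^ (q * (m + C)) * CDiv.principal (v ^ (m + C))) →ₗ[K]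
        Lspace (D ^ (q * (m + C))) :=
      ((LinearMap.mulRight K ((v ^ (m + C) : V.fnˣ) : V.fn)).comp (Submodule.subtype _)).codRestrict
        _ fun a => mem_Lspace_mul_principal.1 a.2
    exact Module.Finite.of_injective f fun a a' h =>
      Subtype.ext ((v ^ (m + C)).mul_left_inj.1 (congrArg Subtype.val h))
  have := T.finrank_le_finrank_of_injective hT
  rw [Module.finrank_pi_fintype] at this
  simp only [Finset.sum_const, Finset.card_univ, Fintype.card_fin, smul_eq_mul] at this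
  refine this.trans_eq ?_
  show lDim (CDiv.pull π hπ (D ^ (m + C))) = _
  rw [pull_pow_eq hq, lDim_mul_principal]

include hD hover hq hfin in
/-- The upper comparison. -/
theorem exists_lDim_le_mul [IsFinite π] (b : FnBasis π hπ d) :
    ∃ c, ∀ m, lDim (D ^ (q * m)) ≤ d * lDim (D ^ (m + c)) := by
  classical
  haveI : CompactSpace V.X := QuasiCompact.compactSpace_of_compactSpace V.str
  haveI : Nonempty U := ⟨⟨_, hD.nonempty.choose_spec⟩⟩
  -- charts on which `D` has one equation, with generators upstairs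
  have key : ∀ x : V.X, ∃ (P : V.X.Opens) (f : V.fnˣ) (N : ℕ) (e : Fin N → V.fn), x ∈ P ∧
      (∀ y ∈ P, D.1 y = QuotientGroup.mk f) ∧
      ∀ a : V.fn, (∀ y, π y ∈ P → a ∈ regAt y) →
        ∃ r : Fin N → V.fn, (∀ j, ∀ y ∈ P, r j ∈ regAt y) ∧ a = ∑ j, fnMap π hπ (r j) * e j := by
    intro x
    obtain ⟨O, hxO, f, hf⟩ := D.2 x
    obtain ⟨_, ⟨P, hP, rfl⟩, hxP, hPO⟩ :=
      V.X.isBasis_affineOpens.exists_subset_of_mem_open hxO O.isOpen
    haveI : Nonempty P := ⟨⟨x, hxP⟩⟩
    haveI : Nonempty (π ⁻¹ᵁ P : V.X.Opens) := by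
      refine ⟨⟨genericPoint V.X, ?_⟩⟩
      show π (genericPoint V.X) ∈ P
      rw [hπ]
      exact ((genericPoint_spec V.X).mem_open_set_iff P.isOpen).2 (by simpa using ⟨x, hxP⟩)
    have hfin := IsFinite.finite_app (f := π) P hP
    algebraize [(π.app P).hom]
    obtain ⟨N, e, he⟩ := Module.Finite.exists_fin (R := Γ(V.X, P)) (M := Γ(V.X, π ⁻¹ᵁ P))
    refine ⟨P, f, N, fun j => V.X.germToFunctionField _ (e j), hxP, fun y hy => hf y (hPO hy),
      fun a ha => ?_⟩
    obtain ⟨α, rfl⟩ := exists_section (W := π ⁻¹ᵁ P) ha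
    obtain ⟨r, rfl⟩ := Submodule.mem_span_range_iff_exists_fun Γ(V.X, P) |>.1
      (he ▸ Submodule.mem_top : α ∈ Submodule.span Γ(V.X, P) (Set.range e))
    refine ⟨fun j => V.X.germToFunctionField P (r j),
      fun j y hy => germToFunctionField_mem_regAt hy _, ?_⟩
    rw [map_sum]
    refine Finset.sum_congr rfl fun j _ => ?_
    rw [Algebra.smul_def, map_mul, fnMap_germ π hπ]
    rfl
  choose P f N e hxP hf hspan using key
  obtain ⟨t, ht⟩ := isCompact_univ.elim_finite_subcover (fun x => (P x : Set V.X))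
    (fun x => (P x).isOpen) fun x _ => Set.mem_iUnion.2 ⟨x, hxP x⟩
  have hex : ∀ p : (Σ x : {x // x ∈ t}, Fin (N x.1) × Fin d), ∃ s : V.fn, s ≠ 0 ∧
      (∀ x ∈ U, s ∈ regAt x) ∧ ∀ x ∈ U, s * b.coord (e p.1.1 p.2.1) p.2.2 ∈ regAt x := fun p =>
    exists_mul_mem_regAt hD.affine (b.coord (e p.1.1 p.2.1) p.2.2)
  choose s hs0 hs hse using hex
  set S := ∏ p, s p
  have hS : S ≠ 0 := Finset.prod_ne_zero_iff.2 fun p _ => hs0 p
  have hSe : ∀ p : (Σ x : {x // x ∈ t}, Fin (N x.1) × Fin d), ∀ x ∈ U, S * b.coord (e p.1.1 p.2.1) p.2.2 ∈ regAt x := fun p x hx => by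
    rw [show S = s p * ∏ p' ∈ Finset.univ.erase p, s p' from
      (Finset.mul_prod_erase Finset.univ s (Finset.mem_univ p)).symm, mul_right_comm]
    exact mul_mem (hse p x hx) (prod_mem fun p' _ => hs p' x hx)
  choose c hc using fun p => exists_mem_Lspace_pow hD (hSe p)
  refine ⟨Finset.univ.sup c, fun m => ?_⟩
  set C := Finset.univ.sup c
  have hmem : ∀ a ∈ Lspace (CDiv.pull π hπ (D ^ m)), ∀ i,
      S * b.coord a i ∈ Lspace (D ^ (m + C)) := fun a ha i => by
    refine mem_Lspace_of_exists fun y => ?_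
    obtain ⟨x, hxt, hy⟩ := Set.mem_iUnion₂.1 (ht (Set.mem_univ y))
    have hDy : ∀ k, ∀ z ∈ P x, (D ^ k).1 z = QuotientGroup.mk (f x ^ k) := fun k z hz => by
      show D.1 z ^ k = _
      rw [hf x z hz]
      rfl
    refine ⟨f x ^ (m + C), hDy _ y hy, ?_⟩
    obtain ⟨r, hr, hsum⟩ := hspan x (fnMap π hπ ((f x ^ m : V.fnˣ) : V.fn) * a) fun z hz => by
      rw [mul_comm]
      exact ha z _ (pull_apply π hπ (D ^ m) (hDy m _ hz))
    have hco := congrFun (congrArg b.coord hsum) i
    rw [b.coord_mul, b.coord_sum, Finset.sum_apply] at hco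
    simp only [b.coord_mul] at hco
    have hre : S * b.coord a i * ((f x ^ (m + C) : V.fnˣ) : V.fn) =
        ∑ j, r j * (S * b.coord (e x j) i * ((f x ^ C : V.fnˣ) : V.fn)) := by
      rw [pow_add, Units.val_mul]
      calc S * b.coord a i * (((f x ^ m : V.fnˣ) : V.fn) * ((f x ^ C : V.fnˣ) : V.fn))
          = S * ((f x ^ C : V.fnˣ) : V.fn) * (((f x ^ m : V.fnˣ) : V.fn) * b.coord a i) := by ring
        _ = _ := by rw [hco, Finset.mul_sum]; exact Finset.sum_congr rfl fun j _ => by ring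
    rw [hre]
    refine sum_mem fun j _ => mul_mem (hr j y hy) ?_
    exact Lspace_pow_mono hD.eff (Finset.le_sup (Finset.mem_univ ⟨⟨x, hxt⟩, j, i⟩))
      (hc ⟨⟨x, hxt⟩, j, i⟩) y _ (hDy C y hy)
  let T : Lspace (CDiv.pull π hπ (D ^ m)) →ₗ[K] (Fin d → Lspace (D ^ (m + C))) :=
    { toFun := fun a i => ⟨S * b.coord a i, hmem a a.2 i⟩
      map_add' := fun a a' => funext fun i => Subtype.ext (by
        simp only [Submodule.coe_add, b.coord_add, Pi.add_apply, mul_add])
      map_smul' := fun k a => funext fun i => Subtype.ext (by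
        show S * b.coord ((k • a : Lspace (CDiv.pull π hπ (D ^ m))) : V.fn) i = k • (S * b.coord a i)
        rw [SetLike.val_smul, Algebra.smul_def, ← fnMap_algebraMap_const π hπ hover, b.coord_mul,
          Algebra.smul_def]
        ring) }
  have hT : Function.Injective T := fun a a' h => Subtype.ext (b.coord_injective (funext fun i =>
    mul_left_cancel₀ hS (congrArg Subtype.val (congrFun h i))))
  haveI : ∀ m, FiniteDimensional K (Lspace (D ^ m)) := hfin
  have := T.finrank_le_finrank_of_injective hT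
  rw [Module.finrank_pi_fintype] at this
  simp only [Finset.sum_const, Finset.card_univ, Fintype.card_fin, smul_eq_mul] at this
  refine le_trans (le_of_eq ?_) this
  show _ = lDim (CDiv.pull π hπ (D ^ m))
  rw [pull_pow_eq hq, lDim_mul_principal]

end FLTAgent.AbScheme
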