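import Fermat.Agent.AbScheme.Group
import Fermat.Agent.AbScheme.Growth
import Fermat.Agent.AbScheme.Count
import Fermat.Agent.AbScheme.Degree
import Fermat.Agent.AbScheme.Quadratic

/-!
The number of torsion points of an abelian scheme over an algebraically closed field.
-/

set_option autoImplicit false
set_option linter.unusedSectionVars false
set_option linter.style.haveILetI false

noncomputable section

universe u

namespace FLTAgent.AbScheme

open CategoryTheory CategoryTheory.Limits AlgebraicGeometry TopologicalSpace NeronModelInfra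
  GoodReductionJacobian

variable {K : Type u} [Field K] [IsAlgClosed K] {A : Scheme.{u}} {f : A ⟶ Spec (CommRingCat.of K)}

theorem lDim_pow_mono {V : Var K} {D : CDiv V.X}
    {U : V.X.Opens} (hD : D.IsBoundary U) {m m' : ℕ} (h : m ≤ m') : lDim (D ^ m) ≤ lDim (D ^ m') :=
  haveI := finiteDimensional_Lspace hD m'
  Submodule.finrank_mono (Lspace_pow_mono hD.eff h)

/-- The pullback of a symmetric divisor along multiplication by `N`. -/
theorem exists_pull_nsmul [IsIntegral A] {L : RelativeGroupLaw K f} (hcube : CubeRel L)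
    {D : CDiv A} (hsym : CDiv.pull (negHom L) (genericPoint_map _) D = D) (N : ℕ)
    (hπ : L.schemeNsmul N (genericPoint A) = genericPoint A) :
    ∃ v, CDiv.pull (L.schemeNsmul N) hπ D = D ^ (N ^ 2) * CDiv.principal v := by
  have hP : Pic.map (negHom L) (Pic.ofDiv D) = Pic.ofDiv D := by
    rw [Pic.map_ofDiv (negHom L) (genericPoint_map _), hsym]
  have h := Pic.map_nsmul hcube hP N
  rw [Pic.map_ofDiv _ hπ, ← map_pow] at h
  obtain ⟨v, hv⟩ := Pic.ofDiv_eq_one_iff.1
    (show Pic.ofDiv ((D ^ (N ^ 2))⁻¹ * CDiv.pull (L.schemeNsmul N) hπ D) = 1 by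
      rw [map_mul, map_inv, h, inv_mul_cancel])
  exact ⟨v, by rw [← hv, mul_inv_cancel_left]⟩

/-- The count, given the theorem of the cube on points. -/
theorem natCard_torsion_of_cubeRel (L : RelativeGroupLaw K f) (hc : L.IsCommutative)
    (hA : AbelianSchemePropertyBundle K f) (hcube : CubeRel L) (g : ℕ)
    [SmoothOfRelativeDimension g f] {n : ℕ} (hn : (n : K) ≠ 0) :
    Nat.card {x : SchemeHomOver (𝟙 (Spec (CommRingCat.of K))) f //
        L.IsTorsionPoint (𝟙 (Spec (CommRingCat.of K))) n x} = n ^ (2 * g) := by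
  haveI := hA.proper
  haveI := hA.smooth
  haveI := connectedSpace_of_bundle f hA
  haveI := isIntegral_of_groupLaw f L
  haveI : SmoothOfRelativeDimension g (varOf f).str := ‹SmoothOfRelativeDimension g f›
  obtain ⟨U, D, hD, hsym⟩ := exists_symmetric_isBoundary L
  have hfin := fun m => finiteDimensional_Lspace (V := varOf f) hD m
  have hmono : ∀ {m m' : ℕ}, m ≤ m' → lDim (V := varOf f) (D ^ m) ≤ lDim (V := varOf f) (D ^ m') :=
    fun h => lDim_pow_mono (V := varOf f) hD h
  have hn0 : 0 < n := Nat.pos_of_ne_zero fun h => hn (by rw [h, Nat.cast_zero])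
  set d := Nat.card {x : SchemeHomOver (𝟙 (Spec (CommRingCat.of K))) f //
        L.IsTorsionPoint (𝟙 (Spec (CommRingCat.of K))) n x} with hd
  refine Count.eq_pow_of_bounds hn0 (fun m => lDim (V := varOf f) (D ^ m)) ?_ fun k => ?_
  · obtain ⟨C, hC⟩ := exists_lDim_le (V := varOf f) (g := g) hD
    obtain ⟨a, ha, hlo⟩ := exists_le_lDim (V := varOf f) (g := g) hD
    refine ⟨(2 * a) ^ g, C * 2 ^ g, a + 1, fun m hm => ⟨?_, ?_⟩⟩
    · have h2 : m ≤ 2 * a * (m / a) := by
        have h3 := Nat.div_add_mod m a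
        have h4 := Nat.mod_lt m ha
        have h5 : 1 ≤ m / a := Nat.one_le_div_iff ha |>.2 (by omega)
        nlinarith
      calc m ^ g ≤ (2 * a * (m / a)) ^ g := Nat.pow_le_pow_left h2 g
        _ = (2 * a) ^ g * (m / a) ^ g := mul_pow _ _ _
        _ ≤ _ := Nat.mul_le_mul_left _ ((hlo _).trans (hmono (Nat.mul_div_le m a)))
    · refine (hC m).trans ?_
      rw [mul_assoc, ← mul_pow]
      exact Nat.mul_le_mul_left _ (Nat.pow_le_pow_left (by omega) g)
  · set N := n ^ k with hN
    have hNK : (N : K) ≠ 0 := by rw [hN, Nat.cast_pow]; exact pow_ne_zero _ hn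
    haveI := isFinite_schemeNsmul f L hc hNK
    haveI := etale_schemeNsmul f L hc hNK
    haveI := surjective_schemeNsmul f L hc hNK
    have hπ := genericPoint_map (L.schemeNsmul N)
    have hfr : ∀ y, (L.schemeNsmul N).finrank y = d ^ k := fun y => by
      rw [finrank_schemeNsmul f L hc hNK y, hN, natCard_torsion_pow f L hc hn k]
    obtain ⟨b⟩ := exists_fnBasis (V := varOf f) (L.schemeNsmul N) hπ hfr
      (pow_pos (natCard_torsion_pos f L hc hn) k)
    obtain ⟨v, hv⟩ := exists_pull_nsmul hcube hsym N hπ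
    obtain ⟨c₁, h1⟩ := exists_mul_lDim_le hD (L.schemeNsmul_over N) hv hfin b
    obtain ⟨c₂, h2⟩ := exists_lDim_le_mul hD (L.schemeNsmul_over N) hv hfin b
    exact ⟨max c₁ c₂, fun m =>
      ⟨(h1 m).trans (hmono (Nat.mul_le_mul_left _ (by omega))),
       (h2 m).trans (Nat.mul_le_mul_left _ (hmono (by omega)))⟩⟩

end FLTAgent.AbScheme
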